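import Mathlib

/-!
# S55, layer L (local class field theory): frozen interface, part 1

Setting: *algebraic* local fields.  A field `K` of characteristic zero is a local field
(`IsLocalFld K`) if it is the fraction field of a complete discrete valuation ring with finite
residue field, given as a `ValuationSubring K`.  The `q`-adic numbers and the finite extensions of
`ℚ_q` inside `PadicAlgCl q` are instances (leaf `L-INST`).

Galois modules: `Lˣ` as `Rep ℤ Gal(L/K)` is Mathlib's `Rep.ofAlgebraAutOnUnits K L`.

Every `XxxSpec : Prop` below is an interface statement: producers prove `theorem xxx : XxxSpec`,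
consumers take `(h : XxxSpec)` as a hypothesis.  No `sorry` in this file.
-/

set_option autoImplicit false

namespace Fermat.Agent.S55.L

open groupCohomology

/-! ### Local fields -/

/-- The valuation subring `A` of `K` is a complete discrete valuation ring with finite residue
field. -/
def IsLocalRingOfIntegers {K : Type} [Field K] (A : ValuationSubring K) : Prop :=
  IsDiscreteValuationRing A ∧ IsAdicComplete (IsLocalRing.maximalIdeal A) A ∧
    Finite (IsLocalRing.ResidueField A)

/-- An algebraic (characteristic zero, non-archimedean) local field. -/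
class IsLocalFld (K : Type) [Field K] : Prop where
  charZero : CharZero K
  exists_ringOfIntegers : ∃ A : ValuationSubring K, IsLocalRingOfIntegers A

/-- **L-A0** The ring of integers of a local field is unique. -/
def RingOfIntegersUniqueSpec : Prop :=
  ∀ (K : Type) [Field K] [IsLocalFld K] (A A' : ValuationSubring K),
    IsLocalRingOfIntegers A → IsLocalRingOfIntegers A' → A = A'

/-- **L-A1** A finite extension of a local field is a local field. -/
def FiniteExtSpec : Prop :=
  ∀ (K L : Type) [Field K] [Field L] [Algebra K L] [FiniteDimensional K L] [IsLocalFld K],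
    IsLocalFld L

/-! ### The class module `(Gal(L/K), Lˣ)` -/

/-- The multiplicative group of `L` as a `Gal(L/K)`-module. -/
noncomputable abbrev unitsRep (K L : Type) [Field K] [Field L] [Algebra K L] :
    Rep ℤ (L ≃ₐ[K] L) :=
  Rep.ofAlgebraAutOnUnits K L

/-- **L-C1** `H²(Gal(L/K), Lˣ)` is cyclic of order `[L : K]`. -/
def H2CyclicSpec : Prop :=
  ∀ (K L : Type) [Field K] [Field L] [Algebra K L] [FiniteDimensional K L] [IsGalois K L]
    [IsLocalFld K],
    Nonempty (H2 (unitsRep K L) ≃+ ZMod (Module.finrank K L))

/-- **L-C1a** upper bound `|H²(Gal(L/K), Lˣ)| ≤ [L : K]` (Sylow + `p`-group induction from the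
cyclic case). -/
def H2CardLeSpec : Prop :=
  ∀ (K L : Type) [Field K] [Field L] [Algebra K L] [FiniteDimensional K L] [IsGalois K L]
    [IsLocalFld K],
    Finite (H2 (unitsRep K L)) ∧ Nat.card (H2 (unitsRep K L)) ≤ Module.finrank K L

/-- **L-B2** cyclic case: `|H²(Gal(L/K), Lˣ)| = [L : K]` for cyclic `L/K`
(Herbrand quotient of the units is `1`, Hilbert 90). -/
def H2CardCyclicSpec : Prop :=
  ∀ (K L : Type) [Field K] [Field L] [Algebra K L] [FiniteDimensional K L] [IsGalois K L]
    [IsLocalFld K] [IsCyclic (L ≃ₐ[K] L)],
    Finite (H2 (unitsRep K L)) ∧ Nat.card (H2 (unitsRep K L)) = Module.finrank K L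

/-- **L-B2'** norm index for cyclic extensions: `[Kˣ : N Lˣ] = [L : K]`. -/
def NormIndexCyclicSpec : Prop :=
  ∀ (K L : Type) [Field K] [Field L] [Algebra K L] [FiniteDimensional K L] [IsGalois K L]
    [IsLocalFld K] [IsCyclic (L ≃ₐ[K] L)],
    (MonoidHom.range (Units.map (Algebra.norm K : L →* K))).index = Module.finrank K L

end Fermat.Agent.S55.L
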