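import Mathlib
import Fermat.Prelude.Thm_Algebra_finite_maximalSpectrum_and_bijective_localization_of_module_finite
import Fermat.Prelude.Thm_IsLocalRing_isAdicComplete_of_module_finite
import Fermat.Agent.S55.L.Spec

/-!
# S55, layer L, leaf L-A1: a finite extension of a local field is a local field

`finiteExt286 : FiniteExtSpec`.

Route: `A` a complete DVR with finite residue field and fraction field `K` (characteristic `0`),
`L / K` finite.  The integral closure `C` of `A` in `L` is a Dedekind domain, finite over `A`
(separability).  It is local because a domain that is finite over a complete Noetherian local ring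
has only one maximal ideal (Prelude: such an algebra is the product of its localisations at the
finitely many maximal ideals).  Hence `C` is a DVR; it is complete (Prelude) with finite residue
field, and it is a valuation subring of `L`.
-/

set_option autoImplicit false

namespace Fermat.Agent.S55.L

open IsLocalRing

/-- A domain that is module-finite over a complete Noetherian local ring is local. -/
theorem isLocalRing_of_finite_of_isDomain286 (𝒪 : Type) [CommRing 𝒪] [IsLocalRing 𝒪]
    [IsNoetherianRing 𝒪] [IsAdicComplete (maximalIdeal 𝒪) 𝒪]
    (B : Type) [CommRing B] [IsDomain B] [Algebra 𝒪 B] [Module.Finite 𝒪 B] :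
    IsLocalRing B := by
  classical
  obtain ⟨-, hbij, -, -⟩ :=
    Algebra.finite_maximalSpectrum_and_bijective_localization_of_module_finite (𝒪 := 𝒪) B
  refine IsLocalRing.of_unique_max_ideal ?_
  obtain ⟨I, hI⟩ := Ideal.exists_maximal B
  refine ⟨I, hI, fun J hJ => ?_⟩
  by_contra hne
  let I' : MaximalSpectrum B := ⟨I, hI⟩
  let J' : MaximalSpectrum B := ⟨J, hJ⟩
  have hne' : J' ≠ I' := fun h => hne (congrArg MaximalSpectrum.asIdeal h)
  obtain ⟨e, he⟩ := hbij.2 (Pi.single I' 1)
  have h0 : e * (1 - e) = 0 := by
    apply hbij.1
    rw [map_mul, map_sub, map_one, map_zero, he]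
    ext K
    by_cases hK : K = I'
    · subst hK; simp
    · simp [Pi.single_eq_of_ne hK]
  rcases mul_eq_zero.mp h0 with h | h
  · have h2 := congrFun he I'
    rw [h, map_zero] at h2
    simp at h2
  · have h1 : e = 1 := (sub_eq_zero.mp h).symm
    have h2 := congrFun he J'
    rw [h1, map_one] at h2
    simp [Pi.single_eq_of_ne hne'] at h2

section Generic

variable {K L : Type} [Field K] [Field L] [Algebra K L] [FiniteDimensional K L] [CharZero K]

/-- Any integral closure `C` of a complete DVR `A` (with finite residue field, `Frac A = K` of
characteristic zero) in a finite extension `L / K` is a complete DVR with finite residue field. -/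
theorem isLocalRingOfIntegers_integralClosure286 (A : ValuationSubring K)
    (hA : IsLocalRingOfIntegers A) (C : Type) [CommRing C] [IsDomain C] [Algebra A L] [IsScalarTower A K L]
    [Algebra C L] [IsIntegralClosure C A L] [Algebra A C] [IsScalarTower A C L] :
    ∃ _ : IsLocalRing C, IsDiscreteValuationRing C ∧ IsAdicComplete (maximalIdeal C) C ∧
      Finite (ResidueField C) := by
  obtain ⟨hdvr, hcomplete, hfin⟩ := hA
  have := hdvr
  have := hcomplete
  have : Algebra.IsSeparable K L := inferInstance
  have : Module.Finite A C := IsIntegralClosure.finite A K L C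
  have : IsDedekindDomain C := IsIntegralClosure.isDedekindDomain A K L C
  have : IsLocalRing C := isLocalRing_of_finite_of_isDomain286 A C
  have : Algebra.IsIntegral A C := IsIntegralClosure.isIntegral_algebra A L
  have hinjL : Function.Injective (algebraMap A L) := by
    rw [IsScalarTower.algebraMap_eq A K L]
    exact (algebraMap K L).injective.comp (IsFractionRing.injective A K)
  have hinj : Function.Injective (algebraMap A C) := by
    intro x y hxy
    apply hinjL
    rw [IsScalarTower.algebraMap_apply A C L, IsScalarTower.algebraMap_apply A C L, hxy]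
  have : FaithfulSMul A C := (faithfulSMul_iff_algebraMap_injective A C).mpr hinj
  have hnf : ¬ IsField C := fun h =>
    IsDiscreteValuationRing.not_isField A (isField_of_isIntegral_of_isField hinj h)
  have h02 : IsDiscreteValuationRing C ↔ IsDedekindDomain C :=
    (IsDiscreteValuationRing.TFAE C hnf).out 0 2
  have : IsDiscreteValuationRing C := h02.mpr inferInstance
  have hloc : IsLocalHom (algebraMap (↥A) C) := Algebra.IsIntegral.isLocalHom _ _
  have hfinC : Finite (ResidueField C) :=
    @IsLocalRing.ResidueField.finite_of_finite (↥A) C _ _ _ _ _ hloc _ hfin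
  refine ⟨inferInstance, inferInstance, ?_, hfinC⟩
  exact IsLocalRing.isAdicComplete_of_module_finite (𝒪 := A) (T := C)

end Generic

/-- Refined form of **L-A1**: for a ring of integers `A` of `K` there is a ring of integers `B`
of the finite extension `L` which is exactly the integral closure of `A` in `L` (for any algebra
structure `A → L` compatible with `A → K → L`), and `A` is the preimage of `B` in `K`. -/
theorem exists_ringOfIntegers_eq_integralClosure286 {K L : Type} [Field K] [Field L] [Algebra K L]
    [FiniteDimensional K L] [CharZero K] (A : ValuationSubring K) (hA : IsLocalRingOfIntegers A)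
    [Algebra A L] [IsScalarTower A K L] :
    ∃ B : ValuationSubring L, IsLocalRingOfIntegers B ∧ (∀ x : L, x ∈ B ↔ IsIntegral A x) ∧
      (∀ x : K, algebraMap K L x ∈ B ↔ x ∈ A) := by
  obtain ⟨_, hB, -, -⟩ :=
    isLocalRingOfIntegers_integralClosure286 (K := K) (L := L) A hA (integralClosure A L)
  have : IsFractionRing (integralClosure A L) L :=
    IsIntegralClosure.isFractionRing_of_finite_extension A K L _
  have hval : ∀ x : L, x ∈ integralClosure A L ∨ x⁻¹ ∈ integralClosure A L := by
    intro x
    rcases ValuationRing.isInteger_or_isInteger (integralClosure A L) x with ⟨b, hb⟩ | ⟨b, hb⟩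
    · left; rw [← hb]; exact b.2
    · right; rw [← hb]; exact b.2
  let BV : ValuationSubring L :=
    { (integralClosure A L).toSubring with mem_or_inv_mem' := hval }
  have hmem : ∀ x : L, x ∈ BV ↔ IsIntegral A x := fun x => Iff.rfl
  let _ : Algebra A BV :=
    ((algebraMap A L).codRestrict BV (fun a => (hmem _).mpr isIntegral_algebraMap)).toAlgebra
  have : IsScalarTower A BV L := IsScalarTower.of_algebraMap_eq (fun _ => rfl)
  have : IsIntegralClosure BV A L :=
    ⟨Subtype.val_injective, fun {x} => ⟨fun h => ⟨⟨x, (hmem x).mpr h⟩, rfl⟩,
      fun ⟨y, hy⟩ => hy ▸ (hmem _).mp y.2⟩⟩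
  obtain ⟨_, h1, h2, h3⟩ := isLocalRingOfIntegers_integralClosure286 (K := K) (L := L) A hA BV
  refine ⟨BV, ⟨h1, h2, h3⟩, hmem, fun x => ?_⟩
  have := hA.1
  rw [hmem]
  constructor
  · intro hx
    have hx' : IsIntegral A x := by
      rw [← isIntegral_algebraMap_iff (algebraMap K L).injective]
      exact hx
    obtain ⟨a, ha⟩ := IsIntegrallyClosed.isIntegral_iff.mp hx'
    rw [← ha]
    exact a.2
  · intro hx
    have : algebraMap K L x = algebraMap A L ⟨x, hx⟩ := by
      rw [IsScalarTower.algebraMap_apply A K L]
      rfl
    rw [this]
    exact isIntegral_algebraMap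

/-- **L-A1.** A finite extension of a local field is a local field. -/
theorem finiteExt286 : FiniteExtSpec := by
  intro K L _ _ _ _ hK
  have hchar : CharZero K := hK.charZero
  obtain ⟨A, hA⟩ := hK.exists_ringOfIntegers
  let _ : Algebra A L := ((algebraMap K L).comp (algebraMap A K)).toAlgebra
  have : IsScalarTower A K L := IsScalarTower.of_algebraMap_eq (fun _ => rfl)
  obtain ⟨B, hB, -, -⟩ := exists_ringOfIntegers_eq_integralClosure286 (K := K) (L := L) A hA
  exact { charZero := charZero_of_injective_algebraMap (algebraMap K L).injective
          exists_ringOfIntegers := ⟨B, hB⟩ }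

end Fermat.Agent.S55.L
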