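import Fermat.Agent.S55.L.Spec

/-!
# S55, layer L, leaf L-A0 (helper775): the ring of integers of a local field is unique

If `A` and `A'` are valuation subrings of a field `K`, `A` is `𝔪`-adically complete with finite
residue field and `A'` is a Noetherian (e.g. discrete) valuation ring, then `A ≤ A'`.
Consequently two complete discrete valuation subrings with finite residue fields coincide:
`ringOfIntegersUnique775 : RingOfIntegersUniqueSpec`.

Proof: by Hensel's lemma every principal unit of `A` is an `n`-th power for every `n ≡ 1` modulo the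
cardinality `q` of the residue field; an element of `K` with `n`-th roots for arbitrarily large `n`
is integral for `A'` by Krull's intersection theorem; a unit `u` of `A` has `u ^ (q - 1)` principal.
-/

set_option autoImplicit false

namespace Fermat.Agent.S55.L

open IsLocalRing Polynomial

section

variable {K : Type} [Field K]

/-- Hensel: in a complete local ring, an element `x ≡ 1` is an `n`-th power if `n ≡ 1`. -/
theorem exists_pow_eq_of_sub_one_mem775 {R : Type*} [CommRing R] [IsLocalRing R]
    [IsAdicComplete (maximalIdeal R) R] {n : ℕ} (hn : ((n : ℕ) : R) - 1 ∈ maximalIdeal R)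
    {x : R} (hx : x - 1 ∈ maximalIdeal R) : ∃ y : R, y ^ n = x := by
  have hn0 : n ≠ 0 := by
    rintro rfl
    have h1 : (1 : R) ∈ maximalIdeal R := by
      have := (maximalIdeal R).neg_mem hn
      simp at this
    exact (Ideal.ne_top_iff_one _).mp (maximalIdeal.isMaximal R).ne_top h1
  have hmonic : (X ^ n - C x : R[X]).Monic := monic_X_pow_sub_C x hn0
  obtain ⟨a, ha, -⟩ := HenselianRing.is_henselian (I := maximalIdeal R) (X ^ n - C x : R[X])
    hmonic 1 (by
      have : (X ^ n - C x : R[X]).eval 1 = -(x - 1) := by simp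
      rw [this]
      exact (maximalIdeal R).neg_mem hx) (by
      have : (derivative (X ^ n - C x : R[X])).eval 1 = (n : R) := by
        simp [derivative_X_pow]
      rw [this]
      have h1 : Ideal.Quotient.mk (maximalIdeal R) (n : R) = 1 := by
        rw [← sub_eq_zero, ← map_one (Ideal.Quotient.mk (maximalIdeal R)), ← map_sub]
        exact Ideal.Quotient.eq_zero_iff_mem.mpr hn
      rw [h1]
      exact isUnit_one)
  refine ⟨a, ?_⟩
  have : (X ^ n - C x : R[X]).eval a = 0 := ha
  simpa [sub_eq_zero] using this

/-- Krull: an element of `K` having `n`-th roots for arbitrarily large `n` lies in every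
Noetherian valuation subring. -/
theorem mem_of_forall_exists_pow_eq775 (A' : ValuationSubring K) [IsNoetherianRing A']
    {z : K} (hz : z ≠ 0) (h : ∀ N : ℕ, ∃ n, N ≤ n ∧ ∃ y : K, y ^ n = z) : z ∈ A' := by
  by_contra hzA
  have hinv : z⁻¹ ∈ A' := (A'.mem_or_inv_mem z).resolve_left hzA
  set w : A' := ⟨z⁻¹, hinv⟩ with hw
  have hmem : ∀ N : ℕ, w ∈ maximalIdeal A' ^ N := by
    intro N
    obtain ⟨n, hNn, y, hy⟩ := h N
    have hyA : y ∉ A' := fun hyA => hzA (hy ▸ pow_mem hyA n)
    have hyinv : y⁻¹ ∈ A' := (A'.mem_or_inv_mem y).resolve_left hyA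
    set t : A' := ⟨y⁻¹, hyinv⟩ with ht
    have htm : t ∈ maximalIdeal A' := by
      rw [mem_maximalIdeal, mem_nonunits_iff]
      intro htu
      obtain ⟨s, hs⟩ := htu.exists_right_inv
      have hs' : y⁻¹ * (s : K) = 1 := by
        have := congrArg (fun a : A' => (a : K)) hs
        simpa [ht] using this
      have hy0 : y ≠ 0 := by
        rintro rfl
        simp at hs'
      have : (s : K) = y := by
        field_simp at hs'
        exact hs'
      exact hyA (this ▸ s.2)
    have hwt : w = t ^ n := by
      apply Subtype.ext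
      simp [hw, ht, ← hy]
    rw [hwt]
    exact Ideal.pow_le_pow_right hNn (Ideal.pow_mem_pow htm n)
  have hbot : w ∈ (⨅ i : ℕ, maximalIdeal A' ^ i) := by
    simp only [Ideal.mem_iInf]
    exact hmem
  rw [Ideal.iInf_pow_eq_bot_of_isLocalRing _ (maximalIdeal.isMaximal A').ne_top] at hbot
  have hw0 : w = 0 := by simpa using hbot
  have : z⁻¹ = 0 := by
    have := congrArg (fun a : A' => (a : K)) hw0
    simpa [hw] using this
  exact hz (inv_eq_zero.mp this)

/-- A principal unit of a complete valuation subring with finite residue field lies in every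
Noetherian valuation subring. -/
theorem mem_of_sub_one_mem_maximalIdeal775 (A A' : ValuationSubring K)
    [IsAdicComplete (maximalIdeal A) A] [Finite (ResidueField A)] [IsNoetherianRing A']
    {x : A} (hx : x - 1 ∈ maximalIdeal A) : (x : K) ∈ A' := by
  classical
  let _ : Fintype (ResidueField A) := Fintype.ofFinite _
  set q : ℕ := Fintype.card (ResidueField A) with hq
  have hqm : ((q : ℕ) : A) ∈ maximalIdeal A := by
    rw [← residue_eq_zero_iff, map_natCast]
    exact FiniteField.cast_card_eq_zero (ResidueField A)
  have hx0 : (x : K) ≠ 0 := by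
    intro h0
    have hx0' : x = 0 := Subtype.ext h0
    rw [hx0', zero_sub] at hx
    have h1 : (1 : A) ∈ maximalIdeal A := by simpa using (maximalIdeal A).neg_mem hx
    exact (Ideal.ne_top_iff_one _).mp (maximalIdeal.isMaximal A).ne_top h1
  refine mem_of_forall_exists_pow_eq775 A' hx0 fun N => ?_
  refine ⟨q * N + 1, ?_, ?_⟩
  · have hq1 : 1 ≤ q := Fintype.card_pos
    nlinarith
  · have hn : (((q * N + 1 : ℕ) : ℕ) : A) - 1 ∈ maximalIdeal A := by
      have : (((q * N + 1 : ℕ) : ℕ) : A) - 1 = (q : A) * (N : A) := by push_cast; ring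
      rw [this]
      exact Ideal.mul_mem_right _ _ hqm
    obtain ⟨y, hy⟩ := exists_pow_eq_of_sub_one_mem775 hn hx
    exact ⟨(y : K), by rw [← hy]; simp⟩

/-- A complete valuation subring with finite residue field is contained in every Noetherian
valuation subring (of the same field) -/
theorem le_of_complete_of_noetherian775 (A A' : ValuationSubring K)
    [IsAdicComplete (maximalIdeal A) A] [Finite (ResidueField A)] [IsNoetherianRing A'] :
    A ≤ A' := by
  classical
  let _ : Fintype (ResidueField A) := Fintype.ofFinite _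
  -- units of `A` lie in `A'`
  have hunit : ∀ u : A, IsUnit u → (u : K) ∈ A' := by
    intro u hu
    set q : ℕ := Fintype.card (ResidueField A) with hq
    have hres : residue A u ≠ 0 := by
      rw [Ne, residue_eq_zero_iff, mem_maximalIdeal, mem_nonunits_iff]
      exact not_not.mpr hu
    have hpow : residue A (u ^ (q - 1)) = 1 := by
      rw [map_pow]
      exact FiniteField.pow_card_sub_one_eq_one _ hres
    have hx : u ^ (q - 1) - 1 ∈ maximalIdeal A := by
      rw [← residue_eq_zero_iff, map_sub, hpow, map_one, sub_self]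
    have hmem : ((u ^ (q - 1) : A) : K) ∈ A' := mem_of_sub_one_mem_maximalIdeal775 A A' hx
    have hq2 : q - 1 ≠ 0 := by
      have : 1 < q := Fintype.one_lt_card
      omega
    -- `A'` is integrally closed
    by_contra huA
    have huinv : (u : K)⁻¹ ∈ A' := (A'.mem_or_inv_mem _).resolve_left huA
    have hu0 : (u : K) ≠ 0 := by
      intro h0
      exact huA (h0 ▸ A'.zero_mem)
    obtain ⟨m, hm⟩ : ∃ m, q - 1 = m + 1 := Nat.exists_eq_succ_of_ne_zero hq2
    have : (u : K) = ((u ^ (q - 1) : A) : K) * ((u : K)⁻¹) ^ m := by
      rw [hm]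
      push_cast
      rw [pow_succ, inv_pow, mul_comm ((u : K) ^ m) (u : K), mul_assoc,
        mul_inv_cancel₀ (pow_ne_zero m hu0), mul_one]
    exact huA (this ▸ A'.mul_mem _ _ hmem (pow_mem huinv _))
  intro a ha
  by_cases hau : IsUnit (⟨a, ha⟩ : A)
  · exact hunit ⟨a, ha⟩ hau
  · have h1 : IsUnit ((1 : A) + ⟨a, ha⟩) := by
      have hm : (⟨a, ha⟩ : A) ∈ maximalIdeal A := by
        rw [mem_maximalIdeal, mem_nonunits_iff]
        exact hau
      have := IsLocalRing.isUnit_one_sub_self_of_mem_nonunits (-(⟨a, ha⟩ : A))
        (by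
          rw [← mem_maximalIdeal]
          exact (maximalIdeal A).neg_mem hm)
      simpa using this
    have h2 := hunit _ h1
    have h3 : a = (((1 : A) + ⟨a, ha⟩ : A) : K) - 1 := by simp
    rw [h3]
    exact A'.sub_mem h2 A'.one_mem

end

/-- **L-A0** The ring of integers of a local field is unique. -/
theorem ringOfIntegersUnique775 : RingOfIntegersUniqueSpec := by
  intro K _ _ A A' hA hA'
  obtain ⟨hdvr, hcomp, hfin⟩ := hA
  obtain ⟨hdvr', hcomp', hfin'⟩ := hA'
  have := hdvr
  have := hdvr'
  have := hcomp
  have := hcomp'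
  have := hfin
  have := hfin'
  exact le_antisymm (le_of_complete_of_noetherian775 A A') (le_of_complete_of_noetherian775 A' A)

end Fermat.Agent.S55.L
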