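import Fermat.Agent.S55.L.Unram784.CyclicUnique
import Fermat.Agent.S55.L.Unram784.Exists

/-!
# S55, layer L, leaf L-A2 (helper784): unramified extensions of local fields

Summary file.  Main results (all unconditional, Mathlib + `L/Spec*.lean` only):

* `u784_unramifiedExists : UnramifiedExistsSpec`   (L-A2a)
* `u784_unramifiedCyclic : UnramifiedCyclicSpec`   (L-A2b)
* `u784_unramifiedUnique : UnramifiedUniqueSpec`   (L-A2c)
* `u784_ringOfIntegersUnique : RingOfIntegersUniqueSpec`   (L-A0, by-product)
-/

namespace Fermat.Agent.S55.L

/-- **L-A2**: the three specifications on unramified extensions. -/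
theorem u784_unramified_all :
    UnramifiedExistsSpec ∧ UnramifiedCyclicSpec ∧ UnramifiedUniqueSpec :=
  ⟨u784_unramifiedExists, u784_unramifiedCyclic, u784_unramifiedUnique⟩

end Fermat.Agent.S55.L
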