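import Fermat.Agent.S55.L.UnrInv.Closed
import Fermat.Agent.S55.L.Inv481.Main
import Fermat.Agent.S55.L.Unr534.Closed

/-!
# S55, layer L: `InvSpec` is CLOSED (unconditional)

The local invariant maps `inv_{L/K} : H²(Gal(L/K), Lˣ) → ℚ/ℤ` of all finite Galois extensions of
local fields exist, with injectivity, inflation, restriction (× degree), transport and the
unramified normalisation (`L/SpecInv.lean`, structure `InvFamily`).

Assembly: glue `Inv481.inv_of'` (helper481), unramified invariants `UnrInv.unrInv` (helper54),
`UnrNestSpec`/`UnrBCSpec` (helper534), unramified extensions (helper784, helper543/715),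
`H²` cyclic (core T5, helper964 et al.).
-/

set_option autoImplicit false

namespace Fermat.Agent.S55.L.Closed

/-- **L-C2, closed**: the local invariant maps exist. -/
theorem inv : InvSpec :=
  Inv481.inv_of' unramifiedExists u784_unramifiedCyclic h2Cyclic UnrInv.unrInv
    Unr534.unrNestSpec534 Unr534.unrBCSpec534

/-- **L-A2b, closed**. -/
theorem unramifiedCyclic : UnramifiedCyclicSpec := u784_unramifiedCyclic

/-- **L-A2c, closed**. -/
theorem unramifiedUnique : UnramifiedUniqueSpec := u784_unramifiedUnique

end Fermat.Agent.S55.L.Closed
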