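import Fermat.Agent.S55.L.SpecInv

/-!
# S55, layer L (local class field theory): frozen interface, part 3

Output statements consumed by the layers T (Tate's theorem), G and D, and the instantiation at
the `q`-adic fields of the Prelude.
-/

set_option autoImplicit false

namespace Fermat.Agent.S55.L

open groupCohomology

/-- **L-CM** `(Gal(L/K), Lˣ)` is a class module: for every subgroup `H`, `H¹(H, Lˣ) = 0` and
`H²(H, Lˣ)` is cyclic of order `|H|`.  (Input of Tate's theorem, layer T.) -/
def ClassModuleSpec : Prop :=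
  ∀ (K L : Type) [Field K] [Field L] [Algebra K L] [FiniteDimensional K L] [IsGalois K L]
    [IsLocalFld K] (H : Subgroup (L ≃ₐ[K] L)),
    Subsingleton (H1 (Rep.res H.subtype (unitsRep K L))) ∧
      Nonempty (H2 (Rep.res H.subtype (unitsRep K L)) ≃+ ZMod (Nat.card H))

/-- **L-D1a** `H³(Gal(L/K), Lˣ) = 0`. -/
def H3Spec : Prop :=
  ∀ (K L : Type) [Field K] [Field L] [Algebra K L] [FiniteDimensional K L] [IsGalois K L]
    [IsLocalFld K], Subsingleton (groupCohomology (unitsRep K L) 3)

/-- **L-D1b** norm index: `[Kˣ : N Lˣ] = |Gal(L/K)^ab|`. -/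
def NormIndexSpec : Prop :=
  ∀ (K L : Type) [Field K] [Field L] [Algebra K L] [FiniteDimensional K L] [IsGalois K L]
    [IsLocalFld K],
    (MonoidHom.range (Units.map (Algebra.norm K : L →* K))).index =
      Nat.card (Abelianization (L ≃ₐ[K] L))

/-- **L-INST1** `ℚ_q` is a local field. -/
def PadicInstSpec : Prop :=
  ∀ (q : ℕ) [Fact q.Prime], IsLocalFld ℚ_[q]

/-- **L-INST2** the finite extensions of `ℚ_q` inside `PadicAlgCl q` are local fields, with ring
of integers the unit ball of the norm. -/
def PadicExtInstSpec : Prop :=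
  ∀ (q : ℕ) [Fact q.Prime] (E : IntermediateField ℚ_[q] (PadicAlgCl q)),
    FiniteDimensional ℚ_[q] E →
      IsLocalFld E ∧ ∀ A : ValuationSubring E, IsLocalRingOfIntegers A →
        ∀ x : E, x ∈ A ↔ ‖(x : PadicAlgCl q)‖ ≤ 1

end Fermat.Agent.S55.L
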