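import Mathlib
import Fermat.Agent.S55.L.SpecClass

set_option autoImplicit false

namespace Fermat.Agent.S55.L

open scoped NormedField NNReal Valued

section UnitBall

variable (K : Type) [NontriviallyNormedField K] [IsUltrametricDist K]

/-- The closed unit ball of an ultrametric normed field, as a valuation subring. -/
noncomputable def unitBall63 : ValuationSubring K :=
  (NormedField.valuation (K := K)).valuationSubring

lemma mem_unitBall63 (x : K) : x ∈ unitBall63 K ↔ ‖x‖ ≤ 1 := by
  change NormedField.valuation x ≤ 1 ↔ _
  rw [NormedField.valuation_apply, ← NNReal.coe_le_coe]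
  simp

/-- The rank one structure of the valuation of a nontrivially normed ultrametric field. -/
@[instance_reducible]
noncomputable def rankOne63 : Valuation.RankOne (Valued.v : Valuation K ℝ≥0) :=
  inferInstanceAs (Valuation.RankOne (NormedField.valuation (K := K)))

variable [ProperSpace K]

lemma compactSpace_integer63 : CompactSpace (Valued.integer K) := by
  have : ((Valued.integer K : Subring K) : Set K) = Metric.closedBall 0 1 := by
    ext x
    simp [Valued.integer.mem_iff]
  apply isCompact_iff_compactSpace.mp
  rw [this]
  exact isCompact_closedBall 0 1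

lemma dvr_integer63 : IsDiscreteValuationRing (Valued.integer K) :=
  letI := rankOne63 K
  haveI := compactSpace_integer63 K
  Valued.integer.isDiscreteValuationRing_of_compactSpace

lemma finite_residue63 : Finite (IsLocalRing.ResidueField (Valued.integer K)) :=
  letI := rankOne63 K
  (Valued.integer.compactSpace_iff_completeSpace_and_isDiscreteValuationRing_and_finite_residueField.mp
    (compactSpace_integer63 K)).2.2

open scoped Pointwise in
lemma isAdicComplete63 :
    IsAdicComplete (IsLocalRing.maximalIdeal (Valued.integer K)) (Valued.integer K) := by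
  have := compactSpace_integer63 K
  have := dvr_integer63 K
  refine { prec' := fun f hf => ?_ }
  let S n : Set (Valued.integer K) :=
    f n +ᵥ ((IsLocalRing.maximalIdeal (Valued.integer K) ^ n : Ideal (Valued.integer K)) :
      Set (Valued.integer K))
  have hS n : S (n + 1) ⊆ S n := by
    apply (Set.vadd_set_subset_vadd_set_iff.mpr (Ideal.pow_le_pow_right n.le_succ)).trans
    simpa [S] using (hf n.le_succ).symm
  have h n : IsClosed (S n) :=
    (IsNoetherianRing.isClosed_ideal (IsLocalRing.maximalIdeal (Valued.integer K) ^ n)).vadd (f n)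
  obtain ⟨L, hL⟩ := (h 0).isCompact.nonempty_iInter_of_sequence_nonempty_isCompact_isClosed S hS
    (by simp [S]) h
  refine ⟨L, fun n ↦ ?_⟩
  obtain ⟨y, hy, rfl⟩ := Set.mem_iInter.mp hL n
  simpa [SModEq.sub_mem] using hy

/-- **Core lemma.** The unit ball of a locally compact (proper) nontrivially normed ultrametric
field is a complete discrete valuation ring with finite residue field. -/
theorem isLocalRingOfIntegers_unitBall63 : IsLocalRingOfIntegers (unitBall63 K) :=
  ⟨dvr_integer63 K, isAdicComplete63 K, finite_residue63 K⟩

/-- A locally compact nontrivially normed ultrametric field of characteristic zero is a local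
field in the sense of layer L. -/
theorem isLocalFld_of_properSpace63 [CharZero K] : IsLocalFld K :=
  ⟨inferInstance, unitBall63 K, isLocalRingOfIntegers_unitBall63 K⟩

end UnitBall

/-- **L-INST1** `ℚ_q` is a local field. -/
theorem padicInst63 : PadicInstSpec := fun q _ => isLocalFld_of_properSpace63 ℚ_[q]

section Ext

variable (q : ℕ) [Fact q.Prime] (E : IntermediateField ℚ_[q] (PadicAlgCl q))

lemma norm_natCast_prime63 : ‖((q : ℚ_[q]) : PadicAlgCl q)‖ = (q : ℝ)⁻¹ := by
  rw [← Padic.norm_p (p := q)]
  exact norm_algebraMap' (PadicAlgCl q) (q : ℚ_[q])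

/-- The nontrivially normed field structure on a subfield of `PadicAlgCl q`. -/
@[instance_reducible]
noncomputable def nontriviallyNormedField63 : NontriviallyNormedField ↥E :=
  { (inferInstance : NormedField ↥E) with
    non_trivial := by
      refine ⟨(algebraMap ℚ_[q] E (q : ℚ_[q]))⁻¹, ?_⟩
      have h : ‖(algebraMap ℚ_[q] E (q : ℚ_[q]))‖ = (q : ℝ)⁻¹ := norm_natCast_prime63 q
      rw [norm_inv, h, inv_inv]
      exact_mod_cast (Fact.out : q.Prime).one_lt }

lemma properSpace63 [FiniteDimensional ℚ_[q] E] : ProperSpace ↥E :=
  FiniteDimensional.proper ℚ_[q] ↥E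

theorem isLocalFld_intermediateField63 [FiniteDimensional ℚ_[q] E] : IsLocalFld ↥E :=
  letI := nontriviallyNormedField63 q E
  haveI := properSpace63 q E
  isLocalFld_of_properSpace63 ↥E

/-- The unit ball of a finite extension of `ℚ_q` inside `PadicAlgCl q` is a ring of integers. -/
theorem exists_ringOfIntegers_eq_unitBall63 [FiniteDimensional ℚ_[q] E] :
    ∃ A : ValuationSubring E, IsLocalRingOfIntegers A ∧
      ∀ x : E, x ∈ A ↔ ‖(x : PadicAlgCl q)‖ ≤ 1 :=
  letI := nontriviallyNormedField63 q E
  haveI := properSpace63 q E
  ⟨unitBall63 ↥E, isLocalRingOfIntegers_unitBall63 ↥E, fun x => mem_unitBall63 ↥E x⟩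

/-- **L-INST2** from uniqueness of the ring of integers (**L-A0**). -/
theorem padicExtInst_of63 (hA0 : RingOfIntegersUniqueSpec) : PadicExtInstSpec := by
  intro q _ E hE
  have := hE
  have := isLocalFld_intermediateField63 q E
  refine ⟨inferInstance, fun A hA x => ?_⟩
  obtain ⟨B, hB, hBx⟩ := exists_ringOfIntegers_eq_unitBall63 q E
  rw [hA0 E A B hA hB]
  exact hBx x

end Ext

end Fermat.Agent.S55.L
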