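import Fermat.Agent.S55.L.SpecClass
import Fermat.Agent.S55.T.Spec
import Fermat.Agent.S55.H119.ResCoresRep

/-!
# S55, layer L, leaf L-D1 (helper301): `H3Spec` and `NormIndexSpec`

From the class-module statement `ClassModuleSpec` of layer L and Tate's theorem (layer T:
`TateH3Spec`, `TateReciprocitySpec`) we deduce `H³(Gal(L/K), Lˣ) = 0` and the norm index formula
`[Kˣ : N Lˣ] = |Gal(L/K)^ab|`.
-/

set_option autoImplicit false

namespace Fermat.Agent.S55.L

open CategoryTheory groupCohomology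

section TopIso

variable {k G : Type} [CommRing k] [Group G] (A : Rep.{0} k G)

/-- `Hⁿ(⊤, A|⊤) ≅ Hⁿ(G, A)`. -/
noncomputable def topIsoH301 (n : ℕ) :
    groupCohomology (T.resSub A (⊤ : Subgroup G)) n ≅ groupCohomology A n :=
  groupCohomology.mapIso (A := A) (B := T.resSub A (⊤ : Subgroup G))
    (Subgroup.topEquiv : (⊤ : Subgroup G) ≃* G) (LinearEquiv.refl k A.V)
    (fun g => by
      show (LinearEquiv.refl k A.V : A.V →ₗ[k] A.V) ∘ₗ (T.resSub A ⊤).ρ g =
        A.ρ (Subgroup.topEquiv g) ∘ₗ (LinearEquiv.refl k A.V : A.V →ₗ[k] A.V)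
      ext x; rfl) n

theorem topIsoH301_inv (n : ℕ) : (topIsoH301 A n).inv = T.resMap A ⊤ n := by
  exact groupCohomology.map_congr rfl rfl n

theorem resMap_topIsoH301_hom (n : ℕ) (x : groupCohomology (T.resSub A (⊤ : Subgroup G)) n) :
    (T.resMap A ⊤ n).hom ((topIsoH301 A n).hom.hom x) = x := by
  rw [← topIsoH301_inv]
  exact congrArg (fun f => f.hom x) (topIsoH301 A n).hom_inv_id

theorem topIsoH301_hom_resMap (n : ℕ) (x : groupCohomology A n) :
    (topIsoH301 A n).hom.hom ((T.resMap A ⊤ n).hom x) = x := by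
  rw [← topIsoH301_inv]
  exact congrArg (fun f => f.hom x) (topIsoH301 A n).inv_hom_id

end TopIso

section Abstract

/-- In a group isomorphic to `ZMod n`, the preimage of `1` has exact order `n`. -/
theorem dvd_of_zsmul_symm_one_h301 {M : Type*} [AddCommGroup M] (n : ℕ) (e : M ≃+ ZMod n)
    (c : ℤ) (hc : c • e.symm 1 = 0) : (n : ℤ) ∣ c := by
  have h3 : e (c • e.symm 1) = 0 := by rw [hc, map_zero]
  rw [map_zsmul, AddEquiv.apply_symm_apply, zsmul_one] at h3
  exact (ZMod.intCast_zmod_eq_zero_iff_dvd c n).1 h3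

/-- Pure group theory behind "the restriction of a fundamental class is a fundamental class". -/
theorem cyclic_res_gen_h301 {M N : Type*} [AddCommGroup M] [AddCommGroup N] (n m idx : ℕ)
    (hn : idx * m = n) (hidx : idx ≠ 0) (hm : 0 < m)
    (γ : M) (hγ : ∀ c : ℤ, c • γ = 0 → (n : ℤ) ∣ c)
    (res : M →+ N) (hres : ∀ x : M, res x = 0 → idx • x = 0)
    (e : N ≃+ ZMod m) :
    (∀ x : N, ∃ c : ℤ, x = c • res γ) ∧ (∀ c : ℤ, c • res γ = 0 → ∃ d : ℤ, c = (m : ℤ) * d) ∧
      (m : ℤ) • res γ = 0 := by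
  classical
  have : NeZero m := ⟨hm.ne'⟩
  have : Finite N := Finite.of_equiv _ e.symm.toEquiv
  have hcard : Nat.card N = m := by rw [Nat.card_congr e.toEquiv, Nat.card_zmod]
  have p4 : (m : ℤ) • res γ = 0 := by
    rw [natCast_zsmul, ← hcard]
    exact card_nsmul_eq_zero'
  have p3 : ∀ c : ℤ, c • res γ = 0 → ∃ d : ℤ, c = (m : ℤ) * d := by
    intro c hc
    have h5 : res (c • γ) = 0 := by rw [map_zsmul]; exact hc
    have h6 : idx • (c • γ) = 0 := hres _ h5
    have h7 : ((idx : ℤ) * c) • γ = 0 := by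
      rw [mul_smul, natCast_zsmul]; exact h6
    have h8 := hγ _ h7
    rw [← hn] at h8
    push_cast at h8
    have hidx' : (idx : ℤ) ≠ 0 := by exact_mod_cast hidx
    exact (mul_dvd_mul_iff_left hidx').1 h8
  refine ⟨fun x => ?_, p3, p4⟩
  have hord : addOrderOf (res γ) = m := by
    apply Nat.dvd_antisymm
    · apply addOrderOf_dvd_of_nsmul_eq_zero
      rw [← natCast_zsmul]; exact p4
    · obtain ⟨d, hd⟩ := p3 (addOrderOf (res γ))
        (by rw [natCast_zsmul]; exact addOrderOf_nsmul_eq_zero _)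
      exact Int.natCast_dvd_natCast.1 ⟨d, hd⟩
  have htop : AddSubgroup.zmultiples (res γ) = ⊤ := by
    apply AddSubgroup.eq_top_of_card_eq
    rw [Nat.card_zmultiples, hord, hcard]
  have hx : x ∈ AddSubgroup.zmultiples (res γ) := htop ▸ AddSubgroup.mem_top x
  obtain ⟨c, hc⟩ := AddSubgroup.mem_zmultiples_iff.1 hx
  exact ⟨c, hc.symm⟩

end Abstract

section ClassModule

variable {G : Type} [Group G] [Finite G] (C : Rep.{0} ℤ G)

/-- If all `H¹(H, C)` vanish and every `H²(H, C)` is cyclic of order `|H|`, then `C` has a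
fundamental class. -/
theorem exists_isClassModule_h301
    (h1 : ∀ H : Subgroup G, Subsingleton (groupCohomology (T.resSub C H) 1))
    (h2 : ∀ H : Subgroup G, Nonempty (groupCohomology (T.resSub C H) 2 ≃+ ZMod (Nat.card H))) :
    ∃ γ : groupCohomology C 2, T.IsClassModule C γ := by
  classical
  obtain ⟨eT⟩ := h2 ⊤
  set γ₀ : groupCohomology (T.resSub C (⊤ : Subgroup G)) 2 := eT.symm 1 with hγ₀
  set γ : groupCohomology C 2 := (topIsoH301 C 2).hom.hom γ₀ with hγ
  have hcardT : Nat.card (⊤ : Subgroup G) = Nat.card G := Subgroup.card_top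
  have key : ∀ c : ℤ, c • γ = 0 → (Nat.card G : ℤ) ∣ c := by
    intro c hc
    have h0 : c • γ₀ = 0 := by
      have := congrArg (T.resMap C ⊤ 2).hom.toAddMonoidHom hc
      rw [map_zsmul, map_zero] at this
      rw [hγ] at this
      have h' : (T.resMap C ⊤ 2).hom.toAddMonoidHom ((topIsoH301 C 2).hom.hom γ₀) = γ₀ :=
        resMap_topIsoH301_hom C 2 γ₀
      rwa [h'] at this
    have := dvd_of_zsmul_symm_one_h301 _ eT c h0
    rwa [hcardT] at this
  refine ⟨γ, fun H => ?_⟩
  obtain ⟨eH⟩ := h2 H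
  obtain ⟨q2, q3, q4⟩ := cyclic_res_gen_h301 (Nat.card G) (Nat.card H) H.index
    (Subgroup.index_mul_card H) Subgroup.index_ne_zero_of_finite Nat.card_pos γ key
    (T.resMap C H 2).hom.toAddMonoidHom
    (fun x hx => Fermat.Agent.S55.H119.index_nsmul_eq_zero_of_resMap_eq_zero_two C H x hx) eH
  refine ⟨ModuleCat.isZero_of_subsingleton _, ?_, ?_, ?_⟩
  · intro x
    obtain ⟨c, hc⟩ := q2 x
    exact ⟨c, hc.trans (int_smul_eq_zsmul _ c _).symm⟩
  · intro c hc
    exact q3 c ((int_smul_eq_zsmul _ c _).symm.trans hc)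
  · exact (int_smul_eq_zsmul _ _ _).trans q4

end ClassModule

section Local

variable (K L : Type) [Field K] [Field L] [Algebra K L] [FiniteDimensional K L] [IsGalois K L]
  [IsLocalFld K]

/-- A fundamental class for `(Gal(L/K), Lˣ)` from `ClassModuleSpec`. -/
theorem exists_isClassModule_unitsRep_h301 (hCM : ClassModuleSpec) :
    ∃ γ : groupCohomology (unitsRep K L) 2, T.IsClassModule (unitsRep K L) γ :=
  exists_isClassModule_h301 (unitsRep K L) (fun H => (hCM K L H).1) (fun H => (hCM K L H).2)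

end Local

/-- **L-D1a** `H³(Gal(L/K), Lˣ) = 0`, from the class-module statement and Tate's theorem. -/
theorem h3Spec_of_h301 (hCM : ClassModuleSpec) (hT : T.TateH3Spec) : H3Spec := by
  intro K L _ _ _ _ _ _
  obtain ⟨γ, hγ⟩ := exists_isClassModule_unitsRep_h301 K L hCM
  have h := hT (L ≃ₐ[K] L) (unitsRep K L) γ hγ ⊤
  have h' : Limits.IsZero (groupCohomology (unitsRep K L) 3) :=
    h.of_iso (topIsoH301 (unitsRep K L) 3).symm
  exact ModuleCat.subsingleton_of_isZero h'

section NormIndex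

open Additive

/-- The norm of a restricted multiplicative representation. -/
theorem norm_comp_ofMulDistribMulAction_h301 {G H M : Type} [Group G] [Group H] [Fintype H]
    [CommGroup M] [MulDistribMulAction G M] (f : H →* G) (x : Additive M) :
    toMul (Representation.norm
      ((Representation.ofMulDistribMulAction G M).comp f : Representation ℤ H (Additive M)) x) =
      ∏ h : H, (f h) • toMul x := by
  simp [Representation.norm]

variable (K L : Type) [Field K] [Field L] [Algebra K L] [FiniteDimensional K L] [IsGalois K L]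

/-- The norm of the restriction to `⊤` of `Lˣ` is the field norm. -/
theorem resTop_norm_h301 [Fintype (⊤ : Subgroup (L ≃ₐ[K] L))] (y : Lˣ) :
    ((toMul (Representation.norm ((Representation.ofMulDistribMulAction (L ≃ₐ[K] L) Lˣ).comp
      (⊤ : Subgroup (L ≃ₐ[K] L)).subtype : Representation ℤ (⊤ : Subgroup (L ≃ₐ[K] L)) (Additive Lˣ))
        (ofMul y)) : Lˣ) : L) =
      algebraMap K L (Algebra.norm K (y : L)) := by
  classical
  rw [Algebra.norm_eq_prod_automorphisms, norm_comp_ofMulDistribMulAction_h301, Units.coe_prod]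
  refine Fintype.prod_equiv (Subgroup.topEquiv : (⊤ : Subgroup (L ≃ₐ[K] L)) ≃* _).toEquiv _ _ ?_
  intro g
  rfl

omit [FiniteDimensional K L] [IsGalois K L] in
theorem resTop_ρ_h301 :
    (T.resSub (unitsRep K L) (⊤ : Subgroup (L ≃ₐ[K] L))).ρ =
      ((Representation.ofMulDistribMulAction (L ≃ₐ[K] L) Lˣ).comp
        (⊤ : Subgroup (L ≃ₐ[K] L)).subtype) := rfl

end NormIndex

section Hat0

/-- Abstract computation of `|Ĥ⁰|` as an index. -/
theorem card_hat0_eq_index_h301 {k H : Type} [CommRing k] [Group H] [Fintype H]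
    (A : Rep.{0} k H)
    {Q : Type} [Group Q] (ι : Additive Q →+ A.V)
    (hinv : ∀ x : A.V, x ∈ A.ρ.invariants ↔ ∃ u, ι u = x)
    (S : Subgroup Q)
    (hS : ∀ u : Q, u ∈ S ↔ ∃ y : A.V, A.ρ.norm y = ι (Additive.ofMul u)) :
    Nat.card (T.hat0 A) = S.index := by
  classical
  -- the map `Additive Q →+ Ĥ⁰`
  let ι' : Additive Q →+ A.ρ.invariants :=
    { toFun := fun u => ⟨ι u, (hinv _).2 ⟨u, rfl⟩⟩
      map_zero' := by ext; simp
      map_add' := fun u v => by ext; simp }
  let ψ : Additive Q →+ T.hat0 A :=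
    ((Submodule.mkQ ((LinearMap.range A.ρ.norm).comap A.ρ.invariants.subtype)).toAddMonoidHom).comp ι'
  have hsurj : Function.Surjective ψ := by
    intro z
    obtain ⟨⟨x, hx⟩, rfl⟩ := Submodule.Quotient.mk_surjective _ z
    obtain ⟨u, hu⟩ := (hinv x).1 hx
    refine ⟨u, ?_⟩
    show Submodule.Quotient.mk (ι' u) = _
    congr 1
    exact Subtype.ext hu
  have hker : ψ.ker = Subgroup.toAddSubgroup S := by
    ext u
    rw [AddMonoidHom.mem_ker]
    show Submodule.Quotient.mk (ι' u) = 0 ↔ _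
    rw [Submodule.Quotient.mk_eq_zero, Submodule.mem_comap, LinearMap.mem_range]
    exact (hS (Additive.toMul u)).symm
  have h1 : ψ.ker.index = Nat.card (T.hat0 A) := by
    rw [AddSubgroup.index_ker, AddMonoidHom.range_eq_top.2 hsurj]
    exact Nat.card_congr (Equiv.Set.univ _)
  rw [← h1, hker, Subgroup.index_toAddSubgroup]

end Hat0

section NormIndexFinal

open Additive

variable (K L : Type) [Field K] [Field L] [Algebra K L] [FiniteDimensional K L] [IsGalois K L]

/-- `|Ĥ⁰(Gal(L/K), Lˣ)| = [Kˣ : N Lˣ]` (computed on the restriction to `⊤`). -/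
theorem card_hat0_unitsRep_h301 [Fintype (⊤ : Subgroup (L ≃ₐ[K] L))] :
    Nat.card (T.hat0 (T.resSub (unitsRep K L) (⊤ : Subgroup (L ≃ₐ[K] L)))) =
      (MonoidHom.range (Units.map (Algebra.norm K : L →* K))).index := by
  classical
  refine card_hat0_eq_index_h301 (T.resSub (unitsRep K L) (⊤ : Subgroup (L ≃ₐ[K] L)))
    (Q := Kˣ) (show Additive Kˣ →+ Additive Lˣ from
      (Units.map (algebraMap K L : K →* L)).toAdditive) ?_ _ ?_
  · intro x
    constructor
    · intro hx
      have hfix : ∀ σ : L ≃ₐ[K] L, σ ((toMul (show Additive Lˣ from x) : Lˣ) : L) =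
          ((toMul (show Additive Lˣ from x) : Lˣ) : L) := by
        intro σ
        have := hx ⟨σ, Subgroup.mem_top σ⟩
        exact congrArg (fun z : Additive Lˣ => ((toMul z : Lˣ) : L)) this
      obtain ⟨a, ha⟩ := (IsGalois.mem_range_algebraMap_iff_fixed _).2 hfix
      have ha0 : a ≠ 0 := by
        rintro rfl
        rw [map_zero] at ha
        exact (Units.ne_zero _) ha.symm
      refine ⟨ofMul (Units.mk0 a ha0), ?_⟩
      show ofMul (Units.map (algebraMap K L : K →* L) (Units.mk0 a ha0)) = _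
      apply congrArg ofMul
      apply Units.ext
      exact ha
    · rintro ⟨u, rfl⟩ g
      show ofMul ((g : L ≃ₐ[K] L) • Units.map (algebraMap K L : K →* L) (toMul u)) = _
      apply congrArg ofMul
      apply Units.ext
      exact (g : L ≃ₐ[K] L).commutes _
  · intro u
    constructor
    · rintro ⟨w, rfl⟩
      refine ⟨(show Additive Lˣ from ofMul w), ?_⟩
      show Representation.norm ((Representation.ofMulDistribMulAction (L ≃ₐ[K] L) Lˣ).comp
        (⊤ : Subgroup (L ≃ₐ[K] L)).subtype : Representation ℤ (⊤ : Subgroup (L ≃ₐ[K] L))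
          (Additive Lˣ)) (ofMul w) =
        ofMul (Units.map (algebraMap K L : K →* L) (Units.map (Algebra.norm K : L →* K) w))
      apply toMul.injective
      apply Units.ext
      rw [resTop_norm_h301]
      rfl
    · rintro ⟨y, hy⟩
      refine ⟨toMul (show Additive Lˣ from y), ?_⟩
      have hy' : Representation.norm ((Representation.ofMulDistribMulAction (L ≃ₐ[K] L) Lˣ).comp
        (⊤ : Subgroup (L ≃ₐ[K] L)).subtype : Representation ℤ (⊤ : Subgroup (L ≃ₐ[K] L))
          (Additive Lˣ)) (ofMul (toMul (show Additive Lˣ from y))) =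
        ofMul (Units.map (algebraMap K L : K →* L) u) := hy
      have h2 := congrArg (fun z : Additive Lˣ => ((toMul z : Lˣ) : L)) hy'
      simp only [resTop_norm_h301] at h2
      apply Units.ext
      apply (algebraMap K L).injective
      exact h2

end NormIndexFinal

/-- **L-D1b** the norm index formula `[Kˣ : N Lˣ] = |Gal(L/K)^ab|`, from the class-module
statement and Tate's reciprocity isomorphism. -/
theorem normIndexSpec_of_h301 (hCM : ClassModuleSpec) (hT : T.TateReciprocitySpec) :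
    NormIndexSpec := by
  intro K L _ _ _ _ _ _
  classical
  obtain ⟨γ, hγ⟩ := exists_isClassModule_unitsRep_h301 K L hCM
  let _ : Fintype (⊤ : Subgroup (L ≃ₐ[K] L)) := Fintype.ofFinite _
  obtain ⟨e⟩ := hT (L ≃ₐ[K] L) (unitsRep K L) γ hγ ⊤
  rw [← card_hat0_unitsRep_h301 K L, ← Nat.card_congr e.toEquiv]
  exact Nat.card_congr
    ((Additive.ofMul.symm).trans
      (Subgroup.topEquiv : (⊤ : Subgroup (L ≃ₐ[K] L)) ≃* _).abelianizationCongr.toEquiv)



end Fermat.Agent.S55.L
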