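import Fermat.Agent.S55.L.SpecInv
import Fermat.Agent.S55.L.H661.IntClosure
import Fermat.Agent.S55.L.H661.UnramNorm

/-!
# S55, layer L, leaf L-B1 in Spec form: `UnramifiedNormUnitsSpec`

`unramifiedNormUnits_of423 (h0 : RingOfIntegersUniqueSpec) : UnramifiedNormUnitsSpec`.

Bridge from the abstract norm theorem of helper661
(`H661.unitsMap_norm_surjective_of_map_maximalIdeal_eq`, Galois-free) to the valuation-subring
interface of helper54's Spec:

* by uniqueness of the ring of integers (`h0`, leaf L-A0) the rings `A`, `B` of the statement are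
  the ones carrying the common uniformizer, and `B` is the valuation subring of elements of `L`
  integral over `A` (which is a ring of integers by `H661.intClosure_*`);
* `B` is finite free over `A`, and `𝔪_A B = 𝔪_B` since a uniformizer of `A` is one of `B`;
* `Algebra.norm K` restricted to `B` is `Algebra.norm A` (`Algebra.norm_localization`).
-/

set_option autoImplicit false
set_option linter.style.haveILetI false

namespace Fermat.Agent.S55.L.H423

open IsLocalRing

/-- **L-B1** (Spec form, modulo uniqueness of the ring of integers L-A0): in an unramified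
extension of local fields every unit of `K` is the norm of a unit of `L`. -/
theorem unramifiedNormUnits_of423 (h0 : RingOfIntegersUniqueSpec) : UnramifiedNormUnitsSpec := by
  intro K L _ _ _ _ hK hun A B hA hB u hu
  classical
  obtain ⟨A₁, B₁, π, hA₁, hB₁, hπA, hπB⟩ := hun
  haveI hchar : CharZero K := hK.charZero
  haveI hcharL : CharZero L := charZero_of_injective_algebraMap (algebraMap K L).injective
  haveI hL : IsLocalFld L := ⟨hcharL, ⟨B, hB⟩⟩
  obtain rfl : A₁ = A := h0 K A₁ A hA₁ hA
  obtain rfl : B₁ = B := h0 L B₁ B hB₁ hB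
  obtain ⟨hdvr, hcomp, hfin⟩ := hA
  haveI := hdvr
  haveI := hcomp
  haveI := hfin
  letI algAL : Algebra A₁ L := ((algebraMap K L).comp (algebraMap A₁ K)).toAlgebra
  haveI : IsScalarTower A₁ K L := IsScalarTower.of_algebraMap_eq (fun _ => rfl)
  haveI : Algebra.IsSeparable K L := inferInstance
  -- the valuation subring of integral elements
  haveI : IsDomain (integralClosure A₁ L) := inferInstance
  haveI : IsDiscreteValuationRing (integralClosure A₁ L) :=
    H661.intClosure_isDVR A₁ K L (integralClosure A₁ L)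
  haveI hFrac : IsFractionRing (integralClosure A₁ L) L :=
    IsIntegralClosure.isFractionRing_of_finite_extension A₁ K L _
  have hval : ∀ x : L, x ∈ integralClosure A₁ L ∨ x⁻¹ ∈ integralClosure A₁ L := by
    intro x
    rcases ValuationRing.isInteger_or_isInteger (integralClosure A₁ L) x with ⟨b, hb⟩ | ⟨b, hb⟩
    · left; rw [← hb]; exact b.2
    · right; rw [← hb]; exact b.2
  let BV : ValuationSubring L :=
    { (integralClosure A₁ L).toSubring with mem_or_inv_mem' := hval }
  have hmem : ∀ x : L, x ∈ BV ↔ IsIntegral A₁ x := fun x => Iff.rfl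
  letI algABV : Algebra A₁ BV :=
    ((algebraMap A₁ L).codRestrict BV (fun a => (hmem _).mpr isIntegral_algebraMap)).toAlgebra
  haveI : IsScalarTower A₁ BV L := IsScalarTower.of_algebraMap_eq (fun _ => rfl)
  haveI : IsIntegralClosure BV A₁ L :=
    ⟨Subtype.val_injective, fun {x} => ⟨fun h => ⟨⟨x, (hmem x).mpr h⟩, rfl⟩,
      fun ⟨y, hy⟩ => hy ▸ (hmem _).mp y.2⟩⟩
  haveI : IsDiscreteValuationRing BV := H661.intClosure_isDVR A₁ K L BV
  haveI : IsAdicComplete (maximalIdeal BV) BV := H661.intClosure_isAdicComplete A₁ K L BV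
  haveI : Finite (ResidueField BV) := H661.intClosure_finite_residueField A₁ K L BV
  haveI : Module.Finite A₁ BV := H661.intClosure_finite A₁ K L BV
  haveI : Module.Free A₁ BV := H661.intClosure_free A₁ K L BV
  have hBV : IsLocalRingOfIntegers BV := ⟨inferInstance, inferInstance, inferInstance⟩
  have hBB : B₁ = BV := h0 L B₁ BV hB hBV
  rw [hBB] at hπB ⊢
  -- unramified: `𝔪_A B = 𝔪_B`
  obtain ⟨hπmem, hπirr⟩ := hπA
  obtain ⟨hπmemB, hπirrB⟩ := hπB
  have hunr : Ideal.map (algebraMap A₁ BV) (maximalIdeal A₁) = maximalIdeal BV := by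
    rw [hπirr.maximalIdeal_eq, hπirrB.maximalIdeal_eq, Ideal.map_span, Set.image_singleton]
    rfl
  obtain ⟨v, hv⟩ := H661.unitsMap_norm_surjective_of_map_maximalIdeal_eq (A := A₁) (B := BV) hunr
    (A₁.unitGroupMulEquiv ⟨u, hu⟩)
  refine ⟨(BV.unitGroupMulEquiv.symm v : BV.unitGroup).1, (BV.unitGroupMulEquiv.symm v).2, ?_⟩
  haveI : IsLocalization (Algebra.algebraMapSubmonoid BV (nonZeroDivisors A₁)) L :=
    IsIntegralClosure.isLocalization A₁ K L BV
  have hnorm := Algebra.norm_localization (R := A₁) (Rₘ := K) (S := BV) (Sₘ := L)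
    (nonZeroDivisors A₁) (v : BV)
  have hv' : Algebra.norm A₁ (v : BV) = (A₁.unitGroupMulEquiv ⟨u, hu⟩ : A₁) := by
    simpa using congrArg Units.val hv
  have h1 : (((BV.unitGroupMulEquiv.symm v : BV.unitGroup) : Lˣ) : L) = algebraMap BV L v := rfl
  rw [h1, hnorm, hv']
  rfl

end Fermat.Agent.S55.L.H423
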