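import Fermat.Agent.S55.L.ClassModule
import Fermat.Agent.S55.H954.Devissage
import Fermat.Agent.S55.H954.SylowCard

/-!
# S55, layer L, leaf L-C1a: `|H²(Gal(L/K), Lˣ)| ≤ [L : K]` from the cyclic case (helper954)

* `quotTransportIso` (**L-TRQ**): for `N ⊴ Gal(L/K)` with fixed field `F`,
  `Hⁿ(Gal(L/K) ⧸ N, (Lˣ)^N) ≅ Hⁿ(Gal(F/K), Fˣ)`.
* `h2CardLe_of : H2CardCyclicSpec → FiniteExtSpec → H2CardLeSpec`.
-/

set_option autoImplicit false
set_option linter.unusedSectionVars false
set_option linter.style.haveILetI false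

namespace Fermat.Agent.S55.L.H954

open groupCohomology CategoryTheory IntermediateField Fermat.Agent.S55.L Fermat.Agent.S55.H954

section Quot

variable (K L : Type) [Field K] [Field L] [Algebra K L] [FiniteDimensional K L] [IsGalois K L]
variable (N : Subgroup (L ≃ₐ[K] L)) [N.Normal]

/-- A unit of `L` fixed by `N` is a unit of the fixed field of `N`. -/
noncomputable def unitOfInvariant (u : Lˣ) (hu : ∀ σ ∈ N, σ (u : L) = u) : (fixedField N)ˣ where
  val := ⟨(u : L), fun σ => hu σ.1 σ.2⟩
  inv := ⟨((u⁻¹ : Lˣ) : L), fun σ => by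
    have h := hu σ.1 σ.2
    have h2 : (σ.1 : L ≃ₐ[K] L) ((u⁻¹ : Lˣ) : L) = ((u⁻¹ : Lˣ) : L) := by
      rw [Units.val_inv_eq_inv_val, map_inv₀, h]
    exact h2⟩
  val_inv := Subtype.ext (by simp)
  inv_val := Subtype.ext (by simp)

lemma coe_unitOfInvariant (u : Lˣ) (hu : ∀ σ ∈ N, σ (u : L) = u) :
    (((unitOfInvariant K L N u hu : (fixedField N)ˣ) : fixedField N) : L) = u := rfl

/-- The invariants of `N` in `Lˣ` are the units of the fixed field (as additive groups). -/
noncomputable def invUnitsAddEquiv :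
    ((unitsRep K L).quotientToInvariants N) ≃+ Additive (fixedField N)ˣ where
  toFun x := Additive.ofMul (unitOfInvariant K L N (Additive.toMul x.1) (fun σ hσ => by
    have h := x.2 ⟨σ, hσ⟩
    exact congrArg (fun y : Additive Lˣ => ((Additive.toMul y : Lˣ) : L)) h))
  invFun y := ⟨Additive.ofMul (Units.map (algebraMap (fixedField N) L).toMonoidHom
      (Additive.toMul y)), fun σ => by
    apply congrArg Additive.ofMul
    apply Units.ext
    exact (Additive.toMul y : (fixedField N)ˣ).1.2 σ⟩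
  left_inv x := by
    apply Subtype.ext
    apply congrArg Additive.ofMul
    apply Units.ext
    rfl
  right_inv y := by
    apply congrArg Additive.ofMul
    apply Units.ext
    apply Subtype.ext
    rfl
  map_add' x y := by
    apply congrArg Additive.ofMul
    apply Units.ext
    apply Subtype.ext
    rfl

/-- ℤ-linear version of `invUnitsAddEquiv`. -/
noncomputable def invUnitsLinearEquiv :
    ((unitsRep K L).quotientToInvariants N).V ≃ₗ[ℤ] (unitsRep K (fixedField N)).V :=
  (invUnitsAddEquiv K L N).toIntLinearEquiv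

lemma invUnitsLinearEquiv_comm (g : (L ≃ₐ[K] L) ⧸ N) :
    (invUnitsLinearEquiv K L N).toLinearMap ∘ₗ ((unitsRep K L).quotientToInvariants N).ρ g =
      (unitsRep K (fixedField N)).ρ (IsGalois.normalAutEquivQuotient N g) ∘ₗ
        (invUnitsLinearEquiv K L N).toLinearMap := by
  induction g using QuotientGroup.induction_on with
  | H σ =>
    apply LinearMap.ext
    intro x
    apply congrArg Additive.ofMul
    apply Units.ext
    apply Subtype.ext
    have key := AlgEquiv.restrictNormal_commutes σ (fixedField N)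
      ((Additive.toMul (invUnitsAddEquiv K L N x) : (fixedField N)ˣ) : fixedField N)
    exact key.symm

/-- **L-TRQ** For `N ⊴ Gal(L/K)` with fixed field `F`:
`Hⁿ(Gal(L/K) ⧸ N, (Lˣ)^N) ≅ Hⁿ(Gal(F/K), Fˣ)`. -/
noncomputable def quotTransportIso (n : ℕ) :
    groupCohomology ((unitsRep K L).quotientToInvariants N) n ≅
      groupCohomology (unitsRep K (fixedField N)) n :=
  groupCohomology.mapIso (IsGalois.normalAutEquivQuotient N) (invUnitsLinearEquiv K L N)
    (invUnitsLinearEquiv_comm K L N) n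

end Quot

section Main

lemma finite_and_card_of_addEquiv {X Y : Type*} [AddCommGroup X] [AddCommGroup Y] (e : X ≃+ Y)
    {m : ℕ} (h : Finite Y ∧ Nat.card Y ∣ m) : Finite X ∧ Nat.card X ∣ m := by
  obtain ⟨hf, hd⟩ := h
  exact ⟨Finite.of_equiv Y e.symm.toEquiv, (Nat.card_congr e.toEquiv) ▸ hd⟩

/-- Hilbert 90 for a subgroup of the Galois group. -/
lemma H1_res_eq_zero (K L : Type) [Field K] [Field L] [Algebra K L] [FiniteDimensional K L]
    (H : Subgroup (L ≃ₐ[K] L)) (x : H1 (Rep.res H.subtype (unitsRep K L))) : x = 0 := by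
  haveI : Subsingleton (H1 (unitsRep (fixedField H) L)) :=
    (inferInstance : Subsingleton (H1 (Rep.ofAlgebraAutOnUnits (fixedField H) L)))
  haveI : Subsingleton (H1 (Rep.res H.subtype (unitsRep K L))) :=
    (transportAddEquiv K L H 1).toEquiv.subsingleton
  exact Subsingleton.elim _ _

lemma card_aut_fixedField (K L : Type) [Field K] [Field L] [Algebra K L] [FiniteDimensional K L]
    (H : Subgroup (L ≃ₐ[K] L)) : Nat.card (L ≃ₐ[fixedField H] L) = Nat.card H :=
  (Nat.card_congr (IntermediateField.subgroupEquivAlgEquiv H).toEquiv).symm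

/-- The `p`-group case: induction on the degree, over all Galois extensions of local fields. -/
theorem h2_card_dvd_of_pgroup (hcyc : H2CardCyclicSpec) (h1 : FiniteExtSpec)
    (p : ℕ) [hp : Fact p.Prime] :
    ∀ (n : ℕ) (K L : Type) [Field K] [Field L] [Algebra K L] [FiniteDimensional K L]
      [IsGalois K L] [IsLocalFld K], Nat.card (L ≃ₐ[K] L) = p ^ n →
      Finite (H2 (unitsRep K L)) ∧ Nat.card (H2 (unitsRep K L)) ∣ p ^ n := by
  intro n
  induction n with
  | zero =>
    intro K L _ _ _ _ _ _ hG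
    rw [pow_zero] at hG
    have hz : ∀ x : H2 (unitsRep K L), x = 0 := H2_eq_zero_of_card_eq_one (unitsRep K L) hG
    haveI : Subsingleton (H2 (unitsRep K L)) := ⟨fun a b => (hz a).trans (hz b).symm⟩
    refine ⟨inferInstance, ?_⟩
    rw [Nat.card_unique]
    exact one_dvd _
  | succ n ih =>
    intro K L _ _ _ _ _ _ hG
    obtain ⟨N, hN⟩ := Sylow.exists_subgroup_card_pow_prime (G := L ≃ₐ[K] L) p (n := n)
      (by rw [hG]; exact pow_dvd_pow p (Nat.le_succ n))
    have hidx : N.index = p := by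
      have h := N.card_mul_index
      rw [hN, hG, pow_succ] at h
      exact Nat.eq_of_mul_eq_mul_left (pow_pos hp.out.pos n) h
    haveI hNn : N.Normal := Subgroup.normal_of_index_eq_minFac_card (by
      rw [hidx, hG, Nat.pow_minFac (Nat.succ_ne_zero n), hp.out.minFac_eq])
    -- the top layer `L / F`
    haveI : IsLocalFld (fixedField N) := h1 K (fixedField N)
    haveI : IsGalois (fixedField N) L := IsGalois.tower_top_of_isGalois K _ L
    have IH := ih (fixedField N) L ((card_aut_fixedField K L N).trans hN)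
    have hNc : Finite (H2 (Rep.res N.subtype (unitsRep K L))) ∧
        Nat.card (H2 (Rep.res N.subtype (unitsRep K L))) ∣ p ^ n :=
      finite_and_card_of_addEquiv (transportAddEquiv K L N 2) IH
    -- the bottom layer `F / K`, cyclic of degree `p`
    have hq : Nat.card ((fixedField N) ≃ₐ[K] (fixedField N)) = p := by
      rw [← Nat.card_congr (IsGalois.normalAutEquivQuotient N).toEquiv,
        ← Subgroup.index_eq_card]
      exact hidx
    haveI : IsCyclic ((fixedField N) ≃ₐ[K] (fixedField N)) := isCyclic_of_prime_card hq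
    obtain ⟨hQf, hQc⟩ := hcyc K (fixedField N)
    rw [← IsGalois.card_aut_eq_finrank, hq] at hQc
    have hQ : Finite (H2 ((unitsRep K L).quotientToInvariants N)) ∧
        Nat.card (H2 ((unitsRep K L).quotientToInvariants N)) ∣ p :=
      finite_and_card_of_addEquiv (quotTransportIso K L N 2).toLinearEquiv.toAddEquiv
        ⟨hQf, hQc ▸ dvd_rfl⟩
    obtain ⟨hfin, hdvd⟩ := H2_card_dvd_mul_of_normal (unitsRep K L) N
      (H1_res_eq_zero K L N) hNc.1 hQ.1 hNc.2 hQ.2
    refine ⟨hfin, ?_⟩
    rw [pow_succ, mul_comm]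
    exact hdvd

/-- **L-C1a** `|H²(Gal(L/K), Lˣ)| ≤ [L : K]`, in fact divides it. -/
theorem h2CardDvd_of (hcyc : H2CardCyclicSpec) (h1 : FiniteExtSpec)
    (K L : Type) [Field K] [Field L] [Algebra K L] [FiniteDimensional K L] [IsGalois K L]
    [IsLocalFld K] :
    Finite (H2 (unitsRep K L)) ∧ Nat.card (H2 (unitsRep K L)) ∣ Module.finrank K L := by
  rw [← IsGalois.card_aut_eq_finrank]
  refine card_H2_dvd_card_of_sylow (unitsRep K L) (fun p hp _ => ?_)
  haveI : Fact p.Prime := ⟨hp⟩
  obtain ⟨P⟩ : Nonempty (Sylow p (L ≃ₐ[K] L)) := inferInstance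
  refine ⟨P, ?_⟩
  have hP : Nat.card (P : Subgroup (L ≃ₐ[K] L)) = p ^ ((Nat.card (L ≃ₐ[K] L)).factorization p) :=
    Sylow.card_eq_multiplicity P
  haveI : IsLocalFld (fixedField (P : Subgroup (L ≃ₐ[K] L))) := h1 K _
  haveI : IsGalois (fixedField (P : Subgroup (L ≃ₐ[K] L))) L :=
    IsGalois.tower_top_of_isGalois K _ L
  have h := h2_card_dvd_of_pgroup hcyc h1 p _ (fixedField (P : Subgroup (L ≃ₐ[K] L))) L
    ((card_aut_fixedField K L _).trans hP)
  rw [hP]
  exact finite_and_card_of_addEquiv (transportAddEquiv K L _ 2) h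

/-- **L-C1a** `h2CardLe_of`. -/
theorem h2CardLe_of (hcyc : H2CardCyclicSpec) (h1 : FiniteExtSpec) : H2CardLeSpec := by
  intro K L _ _ _ _ _ _
  obtain ⟨hf, hd⟩ := h2CardDvd_of hcyc h1 K L
  exact ⟨hf, Nat.le_of_dvd Module.finrank_pos hd⟩

end Main

end Fermat.Agent.S55.L.H954
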