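import Fermat.Agent.S55.L.H2Glue
import Fermat.Agent.S55.Local.Spec

/-!
# S55, layer L: adapter between the two frozen interfaces

* `Fermat.Agent.S55.Local` (architect helper715, on main): CORE of local class field theory over a
  base `(A, F)` = complete DVR with finite residue field + fraction field; local fields are the
  finite extensions of `F`.  Main goal `Local.H2CyclicStatement`.
* `Fermat.Agent.S55.L` (architect helper54): OUTER layer (class module, invariant maps, Tate's
  theorem consequences, existence theorem mod `p`, instantiation at `ℚ_q`), phrased for intrinsic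
  local fields `[IsLocalFld K]`.

The adapter theorems below take a `Local` statement and produce the corresponding `L` spec, by
choosing `A :=` the ring of integers of `K` and `F := K`.  So every piece of the `Local` core is
directly usable by the outer layer and nobody has to prove anything twice.
-/

set_option autoImplicit false
set_option linter.style.haveILetI false

namespace Fermat.Agent.S55.L

open groupCohomology

/-- A finite additive cyclic group of order `n` is `ZMod n`. -/
theorem nonempty_addEquiv_zmod_of_isAddCyclic {G : Type*} [AddCommGroup G] {n : ℕ}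
    (hcard : Nat.card G = n) (hcyc : IsAddCyclic G) : Nonempty (G ≃+ ZMod n) := by
  have e := zmodAddCyclicAddEquiv hcyc
  rw [hcard] at e
  exact ⟨e.symm⟩

/-- **Adapter T5**: the main theorem of the `Local` core gives `H2CyclicSpec`. -/
theorem h2Cyclic_of_local (h : Local.H2CyclicStatement) : H2CyclicSpec := by
  intro K L _ _ _ _ _ hK
  obtain ⟨A, hA1, hA2, hA3⟩ := hK.exists_ringOfIntegers
  haveI := hK.charZero
  haveI := hA1
  haveI := hA2
  haveI := hA3
  obtain ⟨hcard, hcyc⟩ := h A K K L
  exact nonempty_addEquiv_zmod_of_isAddCyclic hcard hcyc

/-- **Adapter T4**: the divisibility upper bound of the `Local` core gives `H2CardLeSpec`. -/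
theorem h2CardLe_of_local (h : Local.H2CardDvdStatement) : H2CardLeSpec := by
  intro K L _ _ _ _ _ hK
  obtain ⟨A, hA1, hA2, hA3⟩ := hK.exists_ringOfIntegers
  haveI := hK.charZero
  haveI := hA1
  haveI := hA2
  haveI := hA3
  have hdvd := h A K K L
  have hpos : 0 < Module.finrank K L := Module.finrank_pos
  have hne : Nat.card (H2 (unitsRep K L)) ≠ 0 := by
    intro h0
    rw [show Nat.card (H2 (Rep.ofAlgebraAutOnUnits K L)) = 0 from h0] at hdvd
    exact hpos.ne' (Nat.eq_zero_of_zero_dvd hdvd)
  exact ⟨Nat.finite_of_card_ne_zero hne, Nat.le_of_dvd hpos hdvd⟩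

/-- **Adapter T3'**: the cyclic `H²` count of the `Local` core gives `H2CardCyclicSpec`. -/
theorem h2CardCyclic_of_local (h : Local.CyclicH2CardStatement) : H2CardCyclicSpec := by
  intro K L _ _ _ _ _ hK hcyc
  obtain ⟨A, hA1, hA2, hA3⟩ := hK.exists_ringOfIntegers
  haveI := hK.charZero
  haveI := hA1
  haveI := hA2
  haveI := hA3
  have hcard := h A K K L hcyc
  have hpos : 0 < Module.finrank K L := Module.finrank_pos
  have hne : Nat.card (H2 (unitsRep K L)) ≠ 0 := by
    rw [show Nat.card (H2 (unitsRep K L)) = Module.finrank K L from hcard]
    exact hpos.ne'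
  exact ⟨Nat.finite_of_card_ne_zero hne, hcard⟩

/-- **Adapter T3**: the cyclic norm index of the `Local` core gives `NormIndexCyclicSpec`. -/
theorem normIndexCyclic_of_local (h : Local.CyclicNormIndexStatement) : NormIndexCyclicSpec := by
  intro K L _ _ _ _ _ hK hcyc
  obtain ⟨A, hA1, hA2, hA3⟩ := hK.exists_ringOfIntegers
  haveI := hK.charZero
  haveI := hA1
  haveI := hA2
  haveI := hA3
  exact h A K K L hcyc

/-- **Adapter CM**: the main theorem of the `Local` core gives the class module property, once
finite extensions of local fields are local fields. -/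
theorem classModule_of_local (h : Local.H2CyclicStatement) (h1 : FiniteExtSpec) :
    ClassModuleSpec :=
  classModule_of (h2Cyclic_of_local h) h1

/-- **Adapter CM, direct form**: the main theorem of the `Local` core gives the class module
property; no `FiniteExtSpec` needed, because the intermediate fields of `L / K` are finite
extensions of the base `F := K`. -/
theorem classModule_of_local' (h : Local.H2CyclicStatement) : ClassModuleSpec := by
  intro K L _ _ _ _ _ hK H
  obtain ⟨A, hA1, hA2, hA3⟩ := hK.exists_ringOfIntegers
  haveI := hK.charZero
  haveI := hA1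
  haveI := hA2
  haveI := hA3
  haveI : IsGalois (IntermediateField.fixedField H) L := IsGalois.tower_top_of_isGalois K _ L
  constructor
  · haveI : Subsingleton (H1 (unitsRep (IntermediateField.fixedField H) L)) :=
      (inferInstance :
        Subsingleton (H1 (Rep.ofAlgebraAutOnUnits (IntermediateField.fixedField H) L)))
    exact (transportAddEquiv K L H 1).toEquiv.subsingleton
  · obtain ⟨hcard, hcyc⟩ := h A K (IntermediateField.fixedField H) L
    rw [IntermediateField.finrank_fixedField_eq_card] at hcard
    obtain ⟨e⟩ := nonempty_addEquiv_zmod_of_isAddCyclic hcard hcyc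
    exact ⟨(transportAddEquiv K L H 2).trans e⟩

end Fermat.Agent.S55.L
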