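import Fermat.Agent.S55.L.Spec

/-!
# S55, layer L (local class field theory): frozen interface, part 2

Unramified extensions, Frobenius, the invariant maps and their compatibilities (stated on
cocycles, so that no identification of `Rep`-objects is needed), local existence modulo `p`.
-/

set_option autoImplicit false

namespace Fermat.Agent.S55.L

open groupCohomology

/-! ### Uniformizers, unramified extensions, Frobenius -/

/-- `π` is a uniformizer of the valuation subring `A`. -/
def IsUniformizer {K : Type} [Field K] (A : ValuationSubring K) (π : K) : Prop :=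
  ∃ h : π ∈ A, Irreducible (⟨π, h⟩ : A)

/-- `L/K` is an unramified extension of local fields: a uniformizer of `K` stays a uniformizer. -/
def IsUnramifiedExt (K L : Type) [Field K] [Field L] [Algebra K L] : Prop :=
  ∃ (A : ValuationSubring K) (B : ValuationSubring L) (π : K),
    IsLocalRingOfIntegers A ∧ IsLocalRingOfIntegers B ∧
      IsUniformizer A π ∧ IsUniformizer B (algebraMap K L π)

/-- `φ ∈ Gal(L/K)` is a Frobenius element: `φ x ≡ x ^ |k_K|` modulo the maximal ideal of the
ring of integers of `L`. -/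
def IsFrobeniusElt (K L : Type) [Field K] [Field L] [Algebra K L] (φ : L ≃ₐ[K] L) : Prop :=
  ∃ (A : ValuationSubring K) (B : ValuationSubring L),
    IsLocalRingOfIntegers A ∧ IsLocalRingOfIntegers B ∧
      ∀ x ∈ B, φ x - x ^ Nat.card (IsLocalRing.ResidueField A) ∈ B.nonunits

/-- **L-A2a** existence of the unramified extension of each degree. -/
def UnramifiedExistsSpec : Prop :=
  ∀ (K : Type) [Field K] [IsLocalFld K] (n : ℕ), 0 < n →
    ∃ (L : Type) (_ : Field L) (_ : Algebra K L), FiniteDimensional K L ∧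
      IsUnramifiedExt K L ∧ Module.finrank K L = n

/-- **L-A2b** an unramified extension is Galois and cyclic, generated by a Frobenius element. -/
def UnramifiedCyclicSpec : Prop :=
  ∀ (K L : Type) [Field K] [Field L] [Algebra K L] [FiniteDimensional K L] [IsLocalFld K],
    IsUnramifiedExt K L →
      IsGalois K L ∧ ∃ φ : L ≃ₐ[K] L, IsFrobeniusElt K L φ ∧ ∀ g : L ≃ₐ[K] L, g ∈ Subgroup.zpowers φ

/-- **L-A2c** inside a finite extension `M/K`, two unramified subextensions of the same degree
coincide (as intermediate fields). -/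
def UnramifiedUniqueSpec : Prop :=
  ∀ (K M : Type) [Field K] [Field M] [Algebra K M] [FiniteDimensional K M] [IsLocalFld K]
    (E E' : IntermediateField K M), IsUnramifiedExt K E → IsUnramifiedExt K E' →
      Module.finrank K E = Module.finrank K E' → E = E'

/-- **L-B1** in an unramified extension every unit of `K` is the norm of a unit of `L`. -/
def UnramifiedNormUnitsSpec : Prop :=
  ∀ (K L : Type) [Field K] [Field L] [Algebra K L] [FiniteDimensional K L] [IsLocalFld K],
    IsUnramifiedExt K L →
    ∀ (A : ValuationSubring K) (B : ValuationSubring L),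
      IsLocalRingOfIntegers A → IsLocalRingOfIntegers B →
        ∀ u : Kˣ, u ∈ A.unitGroup →
          ∃ w : Lˣ, w ∈ B.unitGroup ∧ Algebra.norm K (w : L) = (u : K)

/-! ### Cocycles -/

/-- The class in `H²` of a `2`-cocycle. -/
noncomputable abbrev cls {K L : Type} [Field K] [Field L] [Algebra K L]
    (f : cocycles₂ (unitsRep K L)) : H2 (unitsRep K L) :=
  (H2π (unitsRep K L)).hom f

/-- `f` is the cyclic-algebra cocycle of `(φ, a)`: `f (φ^i, φ^j) = 1` if `i + j < n` and `= a`
otherwise, for `0 ≤ i, j < n = [L : K]`. -/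
def IsCyclicCocycle {K L : Type} [Field K] [Field L] [Algebra K L]
    (φ : L ≃ₐ[K] L) (a : Kˣ) (f : cocycles₂ (unitsRep K L)) : Prop :=
  ∀ i j : ℕ, i < Module.finrank K L → j < Module.finrank K L →
    (f : (L ≃ₐ[K] L) × (L ≃ₐ[K] L) → unitsRep K L) (φ ^ i, φ ^ j) =
      if i + j < Module.finrank K L then 0
      else Additive.ofMul (Units.map (algebraMap K L : K →* L) a)

/-- `f'` (on `Gal(L'/K)`) is the inflation of `f` (on `Gal(L/K)`), for a tower `K ⊆ L ⊆ L'` with
`L/K` normal. -/
def IsInflation {K L L' : Type} [Field K] [Field L] [Field L'] [Algebra K L] [Algebra K L']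
    [Algebra L L'] [IsScalarTower K L L'] [Normal K L]
    (f : cocycles₂ (unitsRep K L)) (f' : cocycles₂ (unitsRep K L')) : Prop :=
  ∀ g h : L' ≃ₐ[K] L',
    (f' : (L' ≃ₐ[K] L') × (L' ≃ₐ[K] L') → unitsRep K L') (g, h) =
      Additive.ofMul (Units.map (algebraMap L L' : L →* L')
        (Additive.toMul ((f : (L ≃ₐ[K] L) × (L ≃ₐ[K] L) → unitsRep K L)
          (AlgEquiv.restrictNormalHom L g, AlgEquiv.restrictNormalHom L h))))

/-- `f'` (on `Gal(L/K')`) is the restriction of `f` (on `Gal(L/K)`), for a tower `K ⊆ K' ⊆ L`. -/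
def IsRestriction {K K' L : Type} [Field K] [Field K'] [Field L] [Algebra K K'] [Algebra K L]
    [Algebra K' L] [IsScalarTower K K' L]
    (f : cocycles₂ (unitsRep K L)) (f' : cocycles₂ (unitsRep K' L)) : Prop :=
  ∀ g h : L ≃ₐ[K'] L,
    (f' : (L ≃ₐ[K'] L) × (L ≃ₐ[K'] L) → unitsRep K' L) (g, h) =
      (f : (L ≃ₐ[K] L) × (L ≃ₐ[K] L) → unitsRep K L)
        (g.restrictScalars K, h.restrictScalars K)

/-- `f'` is the transport of `f` along compatible field isomorphisms `K ≃ K'`, `L ≃ L'`. -/
def IsTransport {K L K' L' : Type} [Field K] [Field L] [Algebra K L] [Field K'] [Field L']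
    [Algebra K' L'] (e : L ≃+* L') (c : (L ≃ₐ[K] L) ≃* (L' ≃ₐ[K'] L'))
    (f : cocycles₂ (unitsRep K L)) (f' : cocycles₂ (unitsRep K' L')) : Prop :=
  ∀ g h : L ≃ₐ[K] L,
    (f' : (L' ≃ₐ[K'] L') × (L' ≃ₐ[K'] L') → unitsRep K' L') (c g, c h) =
      Additive.ofMul (Units.map (e : L →* L')
        (Additive.toMul ((f : (L ≃ₐ[K] L) × (L ≃ₐ[K] L) → unitsRep K L) (g, h))))

/-! ### The invariant maps -/

/-- A compatible family of local invariant maps `inv_{L/K} : H²(Gal(L/K), Lˣ) → ℚ/ℤ`. -/
structure InvFamily where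
  /-- the invariant map -/
  inv : ∀ (K L : Type) [Field K] [Field L] [Algebra K L] [FiniteDimensional K L] [IsGalois K L]
    [IsLocalFld K], H2 (unitsRep K L) →+ AddCircle (1 : ℚ)
  inv_injective : ∀ (K L : Type) [Field K] [Field L] [Algebra K L] [FiniteDimensional K L]
    [IsGalois K L] [IsLocalFld K], Function.Injective (inv K L)
  inv_inflation : ∀ (K L L' : Type) [Field K] [Field L] [Field L'] [Algebra K L] [Algebra K L']
    [Algebra L L'] [IsScalarTower K L L'] [FiniteDimensional K L] [FiniteDimensional K L']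
    [IsGalois K L] [IsGalois K L'] [IsLocalFld K]
    (f : cocycles₂ (unitsRep K L)) (f' : cocycles₂ (unitsRep K L')),
    IsInflation f f' → inv K L' (cls f') = inv K L (cls f)
  inv_restriction : ∀ (K K' L : Type) [Field K] [Field K'] [Field L] [Algebra K K'] [Algebra K L]
    [Algebra K' L] [IsScalarTower K K' L] [FiniteDimensional K L] [FiniteDimensional K' L]
    [IsGalois K L] [IsGalois K' L] [IsLocalFld K] [IsLocalFld K']
    (f : cocycles₂ (unitsRep K L)) (f' : cocycles₂ (unitsRep K' L)),
    IsRestriction f f' → inv K' L (cls f') = Module.finrank K K' • inv K L (cls f)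
  inv_transport : ∀ (K L K' L' : Type) [Field K] [Field L] [Algebra K L] [Field K'] [Field L']
    [Algebra K' L'] [FiniteDimensional K L] [FiniteDimensional K' L'] [IsGalois K L]
    [IsGalois K' L'] [IsLocalFld K] [IsLocalFld K']
    (e : L ≃+* L') (c : (L ≃ₐ[K] L) ≃* (L' ≃ₐ[K'] L'))
    (_ : ∀ (g : L ≃ₐ[K] L) (x : L), c g (e x) = e (g x))
    (f : cocycles₂ (unitsRep K L)) (f' : cocycles₂ (unitsRep K' L')),
    IsTransport e c f f' → inv K' L' (cls f') = inv K L (cls f)
  inv_unramified : ∀ (K L : Type) [Field K] [Field L] [Algebra K L] [FiniteDimensional K L]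
    [IsGalois K L] [IsLocalFld K], IsUnramifiedExt K L →
    ∀ (A : ValuationSubring K), IsLocalRingOfIntegers A →
    ∀ (φ : L ≃ₐ[K] L), IsFrobeniusElt K L φ →
    ∀ (π : Kˣ), IsUniformizer A (π : K) →
    ∀ (f : cocycles₂ (unitsRep K L)), IsCyclicCocycle φ π f →
      inv K L (cls f) = (((Module.finrank K L : ℚ)⁻¹ : ℚ) : AddCircle (1 : ℚ))

/-- **L-C2** existence of the invariant maps. -/
def InvSpec : Prop := Nonempty InvFamily

/-! ### Existence theorem modulo `p` -/

/-- **L-D2** local existence theorem modulo `n`: every local field `K` has a finite Galois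
extension `L` whose norm group is contained in `(Kˣ)ⁿ`. -/
def ExistenceModSpec : Prop :=
  ∀ (K : Type) [Field K] [IsLocalFld K] (n : ℕ), 0 < n →
    ∃ (L : Type) (_ : Field L) (_ : Algebra K L), FiniteDimensional K L ∧ IsGalois K L ∧
      ∀ x : L, x ≠ 0 → ∃ y : K, Algebra.norm K x = y ^ n

end Fermat.Agent.S55.L
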