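import Fermat.Agent.S55.L.SpecClass

/-!
# S55, layer L: transport to subgroups and the class-module statement

* `transportIso` : for `H ≤ Gal(L/K)` with fixed field `F`, `Hⁿ(H, Lˣ) ≅ Hⁿ(Gal(L/F), Lˣ)`.
* `classModule_of` : `H2CyclicSpec → FiniteExtSpec → ClassModuleSpec`.
-/

set_option autoImplicit false
set_option linter.style.haveILetI false

namespace Fermat.Agent.S55.L

open groupCohomology CategoryTheory

variable (K L : Type) [Field K] [Field L] [Algebra K L] [FiniteDimensional K L]

/-- **L-TR** The cohomology of a subgroup `H ≤ Gal(L/K)` with coefficients in `Lˣ` is the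
cohomology of `Gal(L/F)`, `F` the fixed field of `H`. -/
noncomputable def transportIso (H : Subgroup (L ≃ₐ[K] L)) (n : ℕ) :
    groupCohomology (Rep.res H.subtype (unitsRep K L)) n ≅
      groupCohomology (unitsRep (IntermediateField.fixedField H) L) n :=
  groupCohomology.mapIso (IntermediateField.subgroupEquivAlgEquiv H)
    (LinearEquiv.refl ℤ _) (fun _ => rfl) n

/-- Additive version of `transportIso`. -/
noncomputable def transportAddEquiv (H : Subgroup (L ≃ₐ[K] L)) (n : ℕ) :
    groupCohomology (Rep.res H.subtype (unitsRep K L)) n ≃+
      groupCohomology (unitsRep (IntermediateField.fixedField H) L) n :=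
  (transportIso K L H n).toLinearEquiv.toAddEquiv

/-- **L-CM** from the cyclicity of `H²` for all finite Galois extensions of local fields. -/
theorem classModule_of (h2 : H2CyclicSpec) (h1 : FiniteExtSpec) : ClassModuleSpec := by
  intro K L _ _ _ _ _ _ H
  haveI : IsLocalFld (IntermediateField.fixedField H) :=
    h1 K (IntermediateField.fixedField H)
  haveI : IsGalois (IntermediateField.fixedField H) L := IsGalois.tower_top_of_isGalois K _ L
  constructor
  · haveI : Subsingleton (H1 (unitsRep (IntermediateField.fixedField H) L)) :=
      (inferInstance : Subsingleton (H1 (Rep.ofAlgebraAutOnUnits (IntermediateField.fixedField H) L)))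
    exact (transportAddEquiv K L H 1).toEquiv.subsingleton
  · obtain ⟨e⟩ := h2 (IntermediateField.fixedField H) L
    rw [IntermediateField.finrank_fixedField_eq_card] at e
    exact ⟨(transportAddEquiv K L H 2).trans e⟩

end Fermat.Agent.S55.L
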