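import Mathlib

/-!
# S55, layer L, leaf L-D2 (local existence theorem modulo `n`), part 1: Kummer counting

Pure algebra (Mathlib only).

* `le_of_card_characters844`: counting lemma for finite abelian groups.
* `norm_range_le_pow_range844`: if `K` contains a primitive `n`-th root of unity, `L/K` is a finite
  Galois extension in which every element of `Kˣ` has an `n`-th root, `(Kˣ)ⁿ` has finite index
  and `Kˣ / N(Lˣ) ≃ Gal(L/K)^ab` (abstract isomorphism), then `N(Lˣ) ⊆ (Kˣ)ⁿ`.
* `exists_galois_with_roots844`: existence of a finite Galois extension containing `n`-th roots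
  of all elements of `Kˣ` when `(Kˣ)ⁿ` has finite index (characteristic zero).
-/

set_option autoImplicit false

namespace Fermat.Agent.S55.L

open Polynomial

/-- Counting lemma.  `V` commutative group, `P = Vⁿ` of finite index, `N ≤ V` with
`V ⧸ N ≃ G^ab` for a finite group `G`, and a family of characters `κ a : G → Mˣ` of exponent `n`
which is injective modulo `P`.  Then `N ≤ P`. -/
theorem le_of_card_characters844 {V G M : Type*} [CommGroup V] [Group G] [CommMonoid M]
    (n : ℕ) [NeZero n] [HasEnoughRootsOfUnity M n]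
    (N : Subgroup V) (hP : (powMonoidHom n : V →* V).range.FiniteIndex)
    (e : V ⧸ N ≃* Abelianization G)
    (κ : V → (G →* Mˣ)) (hκn : ∀ a g, (κ a g) ^ n = 1)
    (hκinj : ∀ a b, κ a = κ b → a / b ∈ (powMonoidHom n : V →* V).range) :
    N ≤ (powMonoidHom n : V →* V).range := by
  classical
  set P : Subgroup V := (powMonoidHom n : V →* V).range with hPdef
  set Q : Subgroup V := N ⊔ P with hQdef
  have hPQ : P ≤ Q := le_sup_right
  have hNQ : N ≤ Q := le_sup_left
  -- the composite `V → V ⧸ N ≃ G^ab`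
  let π : V →* Abelianization G := e.toMonoidHom.comp (QuotientGroup.mk' N)
  have hπsurj : Function.Surjective π := by
    intro x
    obtain ⟨y, hy⟩ := e.surjective x
    obtain ⟨v, rfl⟩ := QuotientGroup.mk'_surjective N y
    exact ⟨v, hy⟩
  have hof : Function.Surjective (Abelianization.of : G →* Abelianization G) :=
    QuotientGroup.mk'_surjective _
  have hπN : ∀ v ∈ N, π v = 1 := by
    intro v hv
    have h1 : (QuotientGroup.mk' N) v = 1 := (QuotientGroup.eq_one_iff v).2 hv
    show e ((QuotientGroup.mk' N) v) = 1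
    rw [h1, map_one]
  -- the characters of `V`
  let f : V → (V →* Mˣ) := fun a => (Abelianization.lift (κ a)).comp π
  have hfn : ∀ a v, (f a v) ^ n = 1 := by
    intro a v
    obtain ⟨g, hg⟩ := hof (π v)
    simp only [f, MonoidHom.comp_apply, ← hg, Abelianization.lift_apply_of]
    exact hκn a g
  have hfQ : ∀ a, Q ≤ (f a).ker := by
    intro a
    rw [hQdef, sup_le_iff]
    constructor
    · intro v hv
      rw [MonoidHom.mem_ker]
      simp only [f, MonoidHom.comp_apply, hπN v hv, map_one]
    · rintro v ⟨w, rfl⟩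
      rw [MonoidHom.mem_ker]
      simp only [powMonoidHom_apply, map_pow]
      exact hfn a w
  have hfinj : ∀ a b, f a = f b → a / b ∈ P := by
    intro a b hab
    apply hκinj
    ext g : 1
    obtain ⟨v, hv⟩ := hπsurj (Abelianization.of g)
    have := congrArg (fun φ : V →* Mˣ => φ v) hab
    simpa only [f, MonoidHom.comp_apply, hv, Abelianization.lift_apply_of] using this
  -- finiteness
  have : P.FiniteIndex := hP
  have : Q.FiniteIndex := Subgroup.finiteIndex_of_le hPQ
  have : Finite (V ⧸ Q) := Subgroup.finite_quotient_of_finiteIndex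
  have : Finite (V ⧸ P) := Subgroup.finite_quotient_of_finiteIndex
  have hexp : Monoid.exponent (V ⧸ Q) ∣ n := by
    apply Monoid.exponent_dvd_of_forall_pow_eq_one
    intro x
    obtain ⟨v, rfl⟩ := QuotientGroup.mk'_surjective Q x
    rw [← map_pow, QuotientGroup.mk'_apply, QuotientGroup.eq_one_iff]
    exact hPQ ⟨v, rfl⟩
  have : HasEnoughRootsOfUnity M (Monoid.exponent (V ⧸ Q)) := HasEnoughRootsOfUnity.of_dvd M hexp
  have hcard : Nat.card ((V ⧸ Q) →* Mˣ) = Nat.card (V ⧸ Q) :=
    CommGroup.card_monoidHom_of_hasEnoughRootsOfUnity (V ⧸ Q) M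
  have : Finite ((V ⧸ Q) →* Mˣ) := by
    apply Nat.finite_of_card_ne_zero
    rw [hcard]
    exact Nat.card_pos.ne'
  -- the injection
  let Φ : V ⧸ P → ((V ⧸ Q) →* Mˣ) := fun q => QuotientGroup.lift Q (f q.out) (hfQ q.out)
  have hΦ : Function.Injective Φ := by
    intro q q' h
    have h1 : f q.out = f q'.out := by
      ext v : 1
      have := congrArg (fun φ : (V ⧸ Q) →* Mˣ => φ (QuotientGroup.mk' Q v)) h
      simpa only [Φ, QuotientGroup.mk'_apply, QuotientGroup.lift_mk] using this
    have h2 := hfinj _ _ h1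
    have h3 : (QuotientGroup.mk q.out : V ⧸ P) = QuotientGroup.mk q'.out := by
      rw [QuotientGroup.eq, ← Subgroup.inv_mem_iff]
      simpa [div_eq_mul_inv, mul_comm] using h2
    simpa using h3
  have hle : P.index ≤ Q.index := by
    have := Nat.card_le_card_of_injective Φ hΦ
    rwa [hcard] at this
  have hdvd : Q.index ∣ P.index := Subgroup.index_dvd_of_le hPQ
  have hP0 : P.index ≠ 0 := Subgroup.FiniteIndex.index_ne_zero
  have heq : Q.index = P.index :=
    le_antisymm (Nat.le_of_dvd (Nat.pos_of_ne_zero hP0) hdvd) hle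
  have hrel : P.relIndex Q = 1 := by
    have h := Subgroup.relIndex_mul_index hPQ
    rw [heq] at h
    exact Nat.eq_of_mul_eq_mul_right (Nat.pos_of_ne_zero hP0) (by rw [h, one_mul])
  exact hNQ.trans (Subgroup.relIndex_eq_one.1 hrel)

/-- The Kummer character `σ ↦ σ α / α` attached to an `n`-th root `α` of an element of `K`,
when `K` contains a primitive `n`-th root of unity. -/
noncomputable def kummerChar844 {K L : Type*} [Field K] [Field L] [Algebra K L]
    (n : ℕ) [NeZero n] (ζ : K) (hζ : IsPrimitiveRoot ζ n) (α : Lˣ)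
    (hα : ∃ a : K, (α : L) ^ n = algebraMap K L a) : (L ≃ₐ[K] L) →* Lˣ where
  toFun σ := Units.map (σ : L →* L) α / α
  map_one' := by
    ext
    simp
  map_mul' σ τ := by
    -- `τ α / α` is an `n`-th root of unity, hence lies in `K` and is fixed by `σ`
    obtain ⟨a, ha⟩ := hα
    have hζL : IsPrimitiveRoot (algebraMap K L ζ) n :=
      hζ.map_of_injective (algebraMap K L).injective
    have hτ : ((Units.map (τ : L →* L) α / α : Lˣ) : L) ^ n = 1 := by
      have h1 : (τ (α : L)) ^ n = (α : L) ^ n := by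
        rw [← map_pow, ha, AlgEquiv.commutes]
      simp only [Units.val_div_eq_div_val, Units.coe_map, MonoidHom.coe_coe, div_pow, h1]
      exact div_self (pow_ne_zero _ α.ne_zero)
    obtain ⟨i, -, hi⟩ := hζL.eq_pow_of_pow_eq_one hτ
    have hfix : σ ((Units.map (τ : L →* L) α / α : Lˣ) : L) =
        ((Units.map (τ : L →* L) α / α : Lˣ) : L) := by
      rw [← hi, ← map_pow, AlgEquiv.commutes]
    ext
    simp only [Units.val_div_eq_div_val, Units.coe_map, MonoidHom.coe_coe, Units.val_mul,
      AlgEquiv.mul_apply] at hfix ⊢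
    rw [map_div₀] at hfix
    have hα0 : (α : L) ≠ 0 := α.ne_zero
    have hσα0 : σ (α : L) ≠ 0 := by simp
    field_simp at hfix ⊢
    linear_combination hfix

theorem kummerChar844_apply {K L : Type*} [Field K] [Field L] [Algebra K L]
    (n : ℕ) [NeZero n] (ζ : K) (hζ : IsPrimitiveRoot ζ n) (α : Lˣ)
    (hα : ∃ a : K, (α : L) ^ n = algebraMap K L a) (σ : L ≃ₐ[K] L) :
    ((kummerChar844 n ζ hζ α hα σ : Lˣ) : L) = σ (α : L) / (α : L) := by
  simp [kummerChar844]

theorem kummerChar844_pow {K L : Type*} [Field K] [Field L] [Algebra K L]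
    (n : ℕ) [NeZero n] (ζ : K) (hζ : IsPrimitiveRoot ζ n) (α : Lˣ)
    (hα : ∃ a : K, (α : L) ^ n = algebraMap K L a) (σ : L ≃ₐ[K] L) :
    (kummerChar844 n ζ hζ α hα σ) ^ n = 1 := by
  obtain ⟨a, ha⟩ := hα
  ext
  rw [Units.val_pow_eq_pow_val, kummerChar844_apply, div_pow, ← map_pow, ha, AlgEquiv.commutes]
  simp only [Units.val_one]
  rw [← ha]
  exact div_self (pow_ne_zero _ α.ne_zero)

/-- **Kummer counting.**  Let `K` contain a primitive `n`-th root of unity and let `L/K` be a
finite Galois extension in which every element of `Kˣ` has an `n`-th root.  If `(Kˣ)ⁿ` has finite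
index in `Kˣ` and `Kˣ ⧸ N(Lˣ)` is (abstractly) isomorphic to `Gal(L/K)^ab`, then every norm from
`L` is an `n`-th power in `K`. -/
theorem norm_range_le_pow_range844 {K L : Type*} [Field K] [Field L] [Algebra K L]
    [FiniteDimensional K L] [IsGalois K L] (n : ℕ) [NeZero n] (ζ : K) (hζ : IsPrimitiveRoot ζ n)
    (hroot : ∀ a : Kˣ, ∃ α : L, α ^ n = algebraMap K L a)
    (hfin : (powMonoidHom n : Kˣ →* Kˣ).range.FiniteIndex)
    (e : Kˣ ⧸ (Units.map (Algebra.norm K : L →* K)).range ≃* Abelianization (L ≃ₐ[K] L)) :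
    (Units.map (Algebra.norm K : L →* K)).range ≤ (powMonoidHom n : Kˣ →* Kˣ).range := by
  classical
  have hζL : IsPrimitiveRoot (algebraMap K L ζ) n :=
    hζ.map_of_injective (algebraMap K L).injective
  have : HasEnoughRootsOfUnity L n := by
    refine ⟨⟨_, hζL⟩, rootsOfUnity.isCyclic L n⟩
  -- choose roots
  have hroot' : ∀ a : Kˣ, ∃ α : Lˣ, (α : L) ^ n = algebraMap K L a := by
    intro a
    obtain ⟨α, hα⟩ := hroot a
    have hα0 : α ≠ 0 := by
      rintro rfl
      rw [zero_pow (NeZero.ne n)] at hα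
      exact (a.ne_zero) ((algebraMap K L).injective (by rw [← hα, map_zero]))
    exact ⟨Units.mk0 α hα0, hα⟩
  choose r hr using hroot'
  let κ : Kˣ → ((L ≃ₐ[K] L) →* Lˣ) := fun a => kummerChar844 n ζ hζ (r a) ⟨a, hr a⟩
  refine le_of_card_characters844 (M := L) n _ hfin e κ
    (fun a σ => kummerChar844_pow n ζ hζ (r a) ⟨a, hr a⟩ σ) ?_
  intro a b hab
  -- `r a / r b` is fixed by the Galois group
  have hfix : ∀ σ : L ≃ₐ[K] L, σ ((r a : L) / (r b : L)) = (r a : L) / (r b : L) := by
    intro σ
    have h1 := congrArg (fun φ : (L ≃ₐ[K] L) →* Lˣ => ((φ σ : Lˣ) : L)) hab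
    simp only [κ, kummerChar844_apply] at h1
    have ha0 : (r a : L) ≠ 0 := (r a).ne_zero
    have hb0 : (r b : L) ≠ 0 := (r b).ne_zero
    have hσb0 : σ (r b : L) ≠ 0 := by simp
    rw [map_div₀]
    field_simp at h1 ⊢
    linear_combination h1
  obtain ⟨c, hc⟩ := (IsGalois.mem_range_algebraMap_iff_fixed ((r a : L) / (r b : L))).2 hfix
  have hc0 : c ≠ 0 := by
    rintro rfl
    rw [map_zero] at hc
    exact (div_ne_zero (r a).ne_zero (r b).ne_zero) hc.symm
  refine ⟨Units.mk0 c hc0, ?_⟩
  ext
  simp only [powMonoidHom_apply, Units.val_pow_eq_pow_val, Units.val_mk0,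
    Units.val_div_eq_div_val]
  apply (algebraMap K L).injective
  rw [map_pow, hc, div_pow, hr a, hr b, map_div₀]

/-- If `(Kˣ)ⁿ` has finite index in `Kˣ` (characteristic zero), there is a finite Galois extension
of `K` in which every element of `Kˣ` has an `n`-th root. -/
theorem exists_galois_with_roots844 (K : Type) [Field K] [CharZero K] (n : ℕ) [NeZero n]
    (hfin : (powMonoidHom n : Kˣ →* Kˣ).range.FiniteIndex) :
    ∃ (L : Type) (_ : Field L) (_ : Algebra K L), FiniteDimensional K L ∧ IsGalois K L ∧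
      ∀ a : Kˣ, ∃ α : L, α ^ n = algebraMap K L a := by
  classical
  set P : Subgroup Kˣ := (powMonoidHom n : Kˣ →* Kˣ).range with hPdef
  have : P.FiniteIndex := hfin
  have : Finite (Kˣ ⧸ P) := Subgroup.finite_quotient_of_finiteIndex
  letI : Fintype (Kˣ ⧸ P) := Fintype.ofFinite _
  let f : K[X] := ∏ q : Kˣ ⧸ P, (X ^ n - C ((q.out : Kˣ) : K))
  have hf0 : f ≠ 0 := by
    rw [Finset.prod_ne_zero_iff]
    intro q _
    exact X_pow_sub_C_ne_zero (NeZero.pos n) _
  refine ⟨f.SplittingField, inferInstance, inferInstance, inferInstance,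
    isGalois_iff.2 ⟨inferInstance, inferInstance⟩, ?_⟩
  intro a
  set q : Kˣ ⧸ P := QuotientGroup.mk a with hq
  -- `a = q.out * c ^ n`
  have hmem : (q.out)⁻¹ * a ∈ P := by
    rw [← QuotientGroup.eq, hq, QuotientGroup.out_eq']
  obtain ⟨c, hc⟩ := hmem
  have hsplit : (map (algebraMap K f.SplittingField) f).Splits :=
    IsSplittingField.splits f.SplittingField f
  have hdvd : (X ^ n - C ((q.out : Kˣ) : K)) ∣ f :=
    Finset.dvd_prod_of_mem _ (Finset.mem_univ q)
  have hsplit' : (map (algebraMap K f.SplittingField) (X ^ n - C ((q.out : Kˣ) : K))).Splits :=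
    Splits.of_dvd hsplit ((Polynomial.map_ne_zero_iff (algebraMap K _).injective).2 hf0)
      (Polynomial.map_dvd _ hdvd)
  have hdeg : (map (algebraMap K f.SplittingField) (X ^ n - C ((q.out : Kˣ) : K))).degree ≠ 0 := by
    rw [Polynomial.degree_map, degree_X_pow_sub_C (NeZero.pos n)]
    exact_mod_cast NeZero.ne n
  obtain ⟨β, hβ⟩ := hsplit'.exists_eval_eq_zero hdeg
  have hβ' : β ^ n = algebraMap K f.SplittingField ((q.out : Kˣ) : K) := by
    simpa [sub_eq_zero] using hβ
  refine ⟨β * algebraMap K f.SplittingField (c : K), ?_⟩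
  have hac : (a : K) = ((q.out : Kˣ) : K) * (c : K) ^ n := by
    have h1 : a = q.out * c ^ n := by
      rw [← powMonoidHom_apply, hc, mul_inv_cancel_left]
    rw [h1]
    simp
  rw [mul_pow, hβ', hac, map_mul, map_pow]

end Fermat.Agent.S55.L
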