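import Fermat.Agent.S55.L.SpecInv
import Fermat.Agent.S55.L.KummerCount844

/-!
# S55, layer L, leaf L-D2: the local existence theorem modulo `n`

`existenceMod_of844 : FiniteExtSpec → PowFiniteIndexSpec844 → NormResidueIsoSpec844 →
  ExistenceModSpec`.

Inputs (as explicit hypotheses, in the Spec pattern):
* `FiniteExtSpec` (L-A1): a finite extension of a local field is a local field;
* `PowFiniteIndexSpec844`: `(Kˣ)ⁿ` has finite index in `Kˣ` (part of the local power index leaf
  L-LPI);
* `NormResidueIsoSpec844`: `Kˣ ⧸ N(Lˣ) ≃ Gal(L/K)^ab` as abstract groups, for finite Galois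
  extensions of local fields (consequence of `ClassModuleSpec` and Tate's theorem T5c).

Proof: go up to `K' = K(μ_n)`; let `L'/K'` be a finite Galois extension containing `n`-th roots of
all elements of `K'ˣ`; Kummer theory embeds `K'ˣ/(K'ˣ)ⁿ` into the characters of exponent `n` of
`Gal(L'/K')`, and the norm residue isomorphism identifies the latter with the characters of
`K'ˣ/N(L'ˣ)(K'ˣ)ⁿ`; counting gives `N(L'ˣ) ⊆ (K'ˣ)ⁿ`.  Finally pass to the normal closure of `L'`
over `K` and use transitivity of norms.
-/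

set_option autoImplicit false

namespace Fermat.Agent.S55.L

/-- `(Kˣ)ⁿ` has finite index in `Kˣ` for a local field `K` (part of leaf L-LPI). -/
def PowFiniteIndexSpec844 : Prop :=
  ∀ (K : Type) [Field K] [IsLocalFld K] (n : ℕ), 0 < n →
    (powMonoidHom n : Kˣ →* Kˣ).range.FiniteIndex

/-- Abstract norm residue isomorphism `Kˣ ⧸ N(Lˣ) ≃ Gal(L/K)^ab` for finite Galois extensions of
local fields. -/
def NormResidueIsoSpec844 : Prop :=
  ∀ (K L : Type) [Field K] [Field L] [Algebra K L] [FiniteDimensional K L] [IsGalois K L]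
    [IsLocalFld K],
    Nonempty (Kˣ ⧸ (Units.map (Algebra.norm K : L →* K)).range ≃* Abelianization (L ≃ₐ[K] L))

/-- Local existence modulo `n` when `K` contains a primitive `n`-th root of unity. -/
theorem existenceMod_of_primitiveRoot844 (hpow : PowFiniteIndexSpec844)
    (hrec : NormResidueIsoSpec844)
    (K : Type) [Field K] [IsLocalFld K] (n : ℕ) (hn : 0 < n) (ζ : K) (hζ : IsPrimitiveRoot ζ n) :
    ∃ (L : Type) (_ : Field L) (_ : Algebra K L), FiniteDimensional K L ∧ IsGalois K L ∧
      ∀ x : L, x ≠ 0 → ∃ y : K, Algebra.norm K x = y ^ n := by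
  haveI : CharZero K := IsLocalFld.charZero
  haveI : NeZero n := ⟨hn.ne'⟩
  have hfin := hpow K n hn
  obtain ⟨L, iF, iA, hfd, hgal, hroot⟩ := exists_galois_with_roots844 K n hfin
  refine ⟨L, iF, iA, hfd, hgal, ?_⟩
  obtain ⟨e⟩ := hrec K L
  have hle := norm_range_le_pow_range844 n ζ hζ hroot hfin e
  intro x hx
  have hmem : Units.map (Algebra.norm K : L →* K) (Units.mk0 x hx) ∈
      (Units.map (Algebra.norm K : L →* K)).range := ⟨_, rfl⟩
  obtain ⟨y, hy⟩ := hle hmem
  refine ⟨(y : K), ?_⟩
  have := congrArg (fun u : Kˣ => (u : K)) hy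
  simpa using this.symm

/-- **L-D2**: the local existence theorem modulo `n`. -/
theorem existenceMod_of844 (hfe : FiniteExtSpec) (hpow : PowFiniteIndexSpec844)
    (hrec : NormResidueIsoSpec844) : ExistenceModSpec := by
  intro K _ _ n hn
  haveI : CharZero K := IsLocalFld.charZero
  haveI : NeZero n := ⟨hn.ne'⟩
  -- go up to `K' = K(μ_n)`
  let K' : Type := CyclotomicField n K
  haveI : FiniteDimensional K K' := IsCyclotomicExtension.finiteDimensional {n} K K'
  haveI : IsLocalFld K' := hfe K K'
  obtain ⟨ζ, hζ⟩ := IsCyclotomicExtension.exists_isPrimitiveRoot K K' (Set.mem_singleton n)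
    hn.ne'
  obtain ⟨L', iF, iA, hfd, hgal, hnorm⟩ := existenceMod_of_primitiveRoot844 hpow hrec K' n hn ζ hζ
  -- `L'` as a `K`-algebra
  letI : Algebra K L' := ((algebraMap K' L').comp (algebraMap K K')).toAlgebra
  haveI : IsScalarTower K K' L' := IsScalarTower.of_algebraMap_eq (fun _ => rfl)
  haveI : FiniteDimensional K L' := FiniteDimensional.trans K K' L'
  -- normal closure
  let Ω : Type := AlgebraicClosure L'
  haveI : IsAlgClosure K Ω := IsAlgClosure.ofAlgebraic K L' Ω
  let L : IntermediateField K Ω := IntermediateField.normalClosure K L' Ω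
  haveI : FiniteDimensional K L := normalClosure.is_finiteDimensional K L' Ω
  haveI : Normal K L := normalClosure.normal K L' Ω
  haveI : IsGalois K L := isGalois_iff.2 ⟨inferInstance, inferInstance⟩
  haveI : FiniteDimensional L' L := FiniteDimensional.right K L' L
  refine ⟨L, inferInstance, inferInstance, inferInstance, inferInstance, ?_⟩
  intro x hx
  -- transitivity of norms
  have h1 : Algebra.norm K x = Algebra.norm K (Algebra.norm L' x) := Algebra.norm_norm.symm
  have h2 : Algebra.norm K (Algebra.norm L' x) =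
      Algebra.norm K (Algebra.norm K' (Algebra.norm L' x)) := Algebra.norm_norm.symm
  have hz : Algebra.norm L' x ≠ 0 := Algebra.norm_ne_zero_iff.2 hx
  obtain ⟨y, hy⟩ := hnorm _ hz
  refine ⟨Algebra.norm K y, ?_⟩
  rw [h1, h2, hy, map_pow]

end Fermat.Agent.S55.L
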