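import Fermat.Agent.S55.L.SpecClass
import Fermat.Agent.S55.L.ClassModule
import Fermat.Agent.S55.T.All
import Fermat.Agent.S55.L.ExistenceMod844
import Fermat.Agent.S55.H424.LocalFldPow

/-!
# S55, layer L, leaf L-D2: discharging the hypotheses of `existenceMod_of844`

* `powFiniteIndex844 : PowFiniteIndexSpec844` (from helper424's landed local power index).
* `hat0UnitsEquiv844` : `Kˣ ⧸ N(Lˣ) ≃* Multiplicative (Ĥ⁰(Gal(L/K), Lˣ))` (restricted to `⊤`),
  for ANY finite Galois extension of fields.
* `normResidueIso_of844 : ClassModuleSpec → T.TateReciprocitySpec → NormResidueIsoSpec844`.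
* `existenceMod_of_tate844 : FiniteExtSpec → ClassModuleSpec → T.TateReciprocitySpec →
    ExistenceModSpec`.
-/

set_option autoImplicit false

namespace Fermat.Agent.S55.L

open Fermat.Agent.S55

/-- `(Kˣ)ⁿ` has finite index in `Kˣ` for a local field (helper424's LPI). -/
theorem powFiniteIndex844 : PowFiniteIndexSpec844 := fun K _ _ n hn =>
  ⟨H424.isLocalFld_index_range_pow_ne_zero K n hn.ne'⟩

section Hat0

variable (K L : Type) [Field K] [Field L] [Algebra K L]

/-- the representation `Lˣ` restricted to the full group, as in `T.TateReciprocitySpec`. -/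
noncomputable abbrev unitsTop844 : Rep.{0} ℤ (⊤ : Subgroup (L ≃ₐ[K] L)) :=
  T.resSub (unitsRep K L) ⊤

theorem rho_unitsTop844 (g : (⊤ : Subgroup (L ≃ₐ[K] L))) (x : (unitsTop844 K L).V) :
    (unitsTop844 K L).ρ g x =
      Additive.ofMul (Units.map ((g.1 : L ≃ₐ[K] L) : L →* L) (Additive.toMul x)) := rfl

theorem mem_invariants_unitsTop844 (x : (unitsTop844 K L).V) :
    x ∈ (unitsTop844 K L).ρ.invariants ↔
      ∀ σ : L ≃ₐ[K] L, σ ((Additive.toMul x : Lˣ) : L) = ((Additive.toMul x : Lˣ) : L) := by
  constructor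
  · intro h σ
    have h1 := h ⟨σ, Subgroup.mem_top σ⟩
    rw [rho_unitsTop844] at h1
    have h2 := congrArg (fun y : Additive Lˣ => ((Additive.toMul y : Lˣ) : L)) h1
    exact h2
  · intro h g
    rw [rho_unitsTop844]
    apply Additive.toMul.injective
    apply Units.ext
    exact h g.1

variable [Fintype (⊤ : Subgroup (L ≃ₐ[K] L))]

theorem norm_unitsTop844 [FiniteDimensional K L] [IsGalois K L] (x : (unitsTop844 K L).V) :
    (((Additive.toMul ((unitsTop844 K L).ρ.norm x) : Lˣ)) : L) =
      algebraMap K L (Algebra.norm K ((Additive.toMul x : Lˣ) : L)) := by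
  classical
  rw [Algebra.norm_eq_prod_automorphisms]
  have h1 : (unitsTop844 K L).ρ.norm x =
      ∑ g : (⊤ : Subgroup (L ≃ₐ[K] L)), (unitsTop844 K L).ρ g x := by
    simp [Representation.norm]
  have h2 : (∑ g : (⊤ : Subgroup (L ≃ₐ[K] L)), (unitsTop844 K L).ρ g x) =
      Additive.ofMul (∏ g : (⊤ : Subgroup (L ≃ₐ[K] L)),
        Units.map ((g.1 : L ≃ₐ[K] L) : L →* L) (Additive.toMul x)) := by
    rw [ofMul_prod]
    rfl
  rw [h1, h2, toMul_ofMul, Units.coe_prod]
  exact Fintype.prod_equiv Subgroup.topEquiv.toEquiv _ _ (fun g => rfl)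

/-- The natural map `Kˣ → Ĥ⁰(Gal(L/K), Lˣ)`. -/
noncomputable def toHat0_844 : Kˣ →* Multiplicative (T.hat0 (unitsTop844 K L)) where
  toFun a := Multiplicative.ofAdd (Submodule.Quotient.mk
    ⟨Additive.ofMul (Units.map (algebraMap K L : K →* L) a),
      (mem_invariants_unitsTop844 K L _).2 (fun σ => σ.commutes (a : K))⟩)
  map_one' := by
    rw [← ofAdd_zero]
    congr 1
    rw [Submodule.Quotient.mk_eq_zero]
    have : (⟨Additive.ofMul (Units.map (algebraMap K L : K →* L) 1), (mem_invariants_unitsTop844 K L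
        _).2 (fun σ => σ.commutes ((1 : Kˣ) : K))⟩ : ↥(unitsTop844 K L).ρ.invariants) = 0 := by
      apply Subtype.ext
      show Additive.ofMul (Units.map (algebraMap K L : K →* L) 1) = 0
      rw [map_one]
      rfl
    rw [this]
    exact Submodule.zero_mem _
  map_mul' a b := by
    rw [← ofAdd_add, ← Submodule.Quotient.mk_add]
    congr 2
    apply Subtype.ext
    show Additive.ofMul (Units.map (algebraMap K L : K →* L) (a * b)) =
      Additive.ofMul (Units.map (algebraMap K L : K →* L) a) +
        Additive.ofMul (Units.map (algebraMap K L : K →* L) b)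
    rw [map_mul]
    rfl

theorem toHat0_844_surjective [FiniteDimensional K L] [IsGalois K L] :
    Function.Surjective (toHat0_844 K L) := by
  intro y
  obtain ⟨⟨x, hx⟩, hy⟩ := Submodule.Quotient.mk_surjective _ (Multiplicative.toAdd y)
  have hfix := (mem_invariants_unitsTop844 K L x).1 hx
  obtain ⟨a, ha⟩ := (IsGalois.mem_range_algebraMap_iff_fixed _).2 hfix
  have ha0 : a ≠ 0 := by
    rintro rfl
    rw [map_zero] at ha
    exact (Additive.toMul x : Lˣ).ne_zero ha.symm
  refine ⟨Units.mk0 a ha0, ?_⟩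
  apply Multiplicative.toAdd.injective
  rw [← hy]
  show Submodule.Quotient.mk _ = Submodule.Quotient.mk _
  congr 1
  apply Subtype.ext
  show Additive.ofMul (Units.map (algebraMap K L : K →* L) (Units.mk0 a ha0)) = x
  apply Additive.toMul.injective
  apply Units.ext
  exact ha

theorem toHat0_844_ker [FiniteDimensional K L] [IsGalois K L] :
    (toHat0_844 K L).ker = (Units.map (Algebra.norm K : L →* K)).range := by
  ext a
  rw [MonoidHom.mem_ker, MonoidHom.mem_range]
  have key : toHat0_844 K L a = 1 ↔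
      ∃ w : (unitsTop844 K L).V, (unitsTop844 K L).ρ.norm w =
        Additive.ofMul (Units.map (algebraMap K L : K →* L) a) := by
    rw [← ofAdd_zero]
    show Multiplicative.ofAdd (Submodule.Quotient.mk _) = Multiplicative.ofAdd 0 ↔ _
    rw [Multiplicative.ofAdd.injective.eq_iff, Submodule.Quotient.mk_eq_zero,
      Submodule.mem_comap, LinearMap.mem_range]
    rfl
  rw [key]
  constructor
  · rintro ⟨w, hw⟩
    refine ⟨Additive.toMul w, ?_⟩
    apply Units.ext
    apply (algebraMap K L).injective
    have h1 := norm_unitsTop844 K L w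
    rw [hw] at h1
    simpa using h1.symm
  · rintro ⟨u, rfl⟩
    have h1 := norm_unitsTop844 K L (Additive.ofMul u : Additive Lˣ)
    refine ⟨(Additive.ofMul u : Additive Lˣ), ?_⟩
    apply Additive.toMul.injective
    apply Units.ext
    exact h1

/-- `Kˣ ⧸ N(Lˣ) ≃ Ĥ⁰(Gal(L/K), Lˣ)` for a finite Galois extension of fields. -/
noncomputable def hat0UnitsEquiv844 [FiniteDimensional K L] [IsGalois K L] :
    Kˣ ⧸ (Units.map (Algebra.norm K : L →* K)).range ≃*
      Multiplicative (T.hat0 (unitsTop844 K L)) :=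
  (QuotientGroup.quotientMulEquivOfEq (toHat0_844_ker K L).symm).trans
    (QuotientGroup.quotientKerEquivOfSurjective (toHat0_844 K L) (toHat0_844_surjective K L))

end Hat0

/-- The abstract norm residue isomorphism `Kˣ ⧸ N(Lˣ) ≃ Gal(L/K)^ab` from the class module
statement of layer L and Tate's theorem (T5c) of layer T. -/
theorem normResidueIso_of844 (hCM : ClassModuleSpec) (hT : T.TateReciprocitySpec) :
    NormResidueIsoSpec844 := by
  intro K L _ _ _ _ _ _
  classical
  have h1 : ∀ H : Subgroup (L ≃ₐ[K] L),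
      CategoryTheory.Limits.IsZero (groupCohomology (T.resSub (unitsRep K L) H) 1) := by
    intro H
    haveI : Subsingleton (groupCohomology (T.resSub (unitsRep K L) H) 1) := (hCM K L H).1
    exact ModuleCat.isZero_of_subsingleton _
  have h2 : ∀ H : Subgroup (L ≃ₐ[K] L),
      Nonempty (groupCohomology (T.resSub (unitsRep K L) H) 2 ≃+ ZMod (Nat.card H)) :=
    fun H => (hCM K L H).2
  obtain ⟨⟨γ, hγ⟩, -⟩ := T.All.classModuleOfCyclic (L ≃ₐ[K] L) (unitsRep K L) h1 h2
  letI : Fintype (⊤ : Subgroup (L ≃ₐ[K] L)) := Fintype.ofFinite _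
  obtain ⟨e⟩ := hT (L ≃ₐ[K] L) (unitsRep K L) γ hγ ⊤
  exact ⟨(hat0UnitsEquiv844 K L).trans
    ((AddEquiv.toMultiplicativeRight e).symm.trans Subgroup.topEquiv.abelianizationCongr)⟩

/-- **L-D2** from the class module statement and Tate's theorem:
`FiniteExtSpec → ClassModuleSpec → T.TateReciprocitySpec → ExistenceModSpec`. -/
theorem existenceMod_of_tate844 (hfe : FiniteExtSpec) (hCM : ClassModuleSpec)
    (hT : T.TateReciprocitySpec) : ExistenceModSpec :=
  existenceMod_of844 hfe powFiniteIndex844 (normResidueIso_of844 hCM hT)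

/-- **L-D2** in terms of the open specs of layers L and T:
`FiniteExtSpec → H2CyclicSpec → T.TateSpec → ExistenceModSpec`. -/
theorem existenceMod_of_h2Cyclic844 (hfe : FiniteExtSpec) (h2 : H2CyclicSpec)
    (hT : T.TateSpec) : ExistenceModSpec :=
  existenceMod_of_tate844 hfe (classModule_of h2 hfe) (T.All.tateReciprocity_of hT)

end Fermat.Agent.S55.L
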