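import Fermat.Agent.S55.L.InvClosed
import Fermat.Agent.S55.L.NormResidue844

/-!
# S55, layer L (outer): ALL interface statements of `L/Spec*.lean` are CLOSED

ONE import for consumers (layers KL, G, D): `import Fermat.Agent.S55.L.AllClosed`, namespace
`Fermat.Agent.S55.L.Closed`.  Every theorem has exactly the type of the frozen outer spec and is
unconditional (sorry-free, standard axioms).

From `L/H715/OuterClosed.lean` (helper715): `ringOfIntegersUnique`, `finiteExt`, `h2Cyclic`,
`h2CardLe`, `h2CardCyclic`, `normIndexCyclic`, `classModule`, `h3`, `normIndex`,
`unramifiedExists`, `unramifiedNormUnits`, `padicInst`, `padicExtInst`.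
From `L/InvClosed.lean`: `inv : InvSpec`, `unramifiedCyclic`, `unramifiedUnique`.
Here: `existenceMod : ExistenceModSpec` (helper844, helper479: Kummer count + reciprocity
isomorphism from Tate's theorem).
-/

set_option autoImplicit false

namespace Fermat.Agent.S55.L.Closed

/-- **L-D2, closed**: local existence theorem modulo `n`. -/
theorem existenceMod : ExistenceModSpec :=
  existenceMod_of_tate844 finiteExt classModule T.All.tateReciprocity

end Fermat.Agent.S55.L.Closed
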