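import Fermat.Agent.S55.L.SpecClass
import Fermat.Agent.S55.T.ClassModuleOfCyclicH53

/-!
# S55, layer L, leaf L-D1 (helper497): `H³ = 0` and the norm index / norm residue isomorphism

From `ClassModuleSpec` (L-CM) and Tate's theorem (layer T, specs `TateH3Spec`,
`TateReciprocitySpec`):

* `h3_of497 : ClassModuleSpec → T.TateH3Spec → H3Spec`
* `normResidue_of497 : ClassModuleSpec → T.TateReciprocitySpec →
    ∀ K L …, Nonempty (Kˣ ⧸ N(Lˣ) ≃* Abelianization Gal(L/K))`
* `normIndex_of497 : ClassModuleSpec → T.TateReciprocitySpec → NormIndexSpec`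

The only real content is the identification `Ĥ⁰(Gal(L/K), Lˣ) = Kˣ / N(Lˣ)`
(`hat0Equiv497`), valid for every finite Galois extension of fields.
-/

set_option autoImplicit false

open CategoryTheory groupCohomology

namespace Fermat.Agent.S55.L

section ClassModule

variable (K L : Type) [Field K] [Field L] [Algebra K L] [FiniteDimensional K L] [IsGalois K L]

/-- `ClassModuleSpec` yields a fundamental class making `(Gal(L/K), Lˣ)` a class module in the
sense of layer T. -/
theorem exists_isClassModule497 (hCM : ClassModuleSpec) [IsLocalFld K] :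
    ∃ γ : groupCohomology (unitsRep K L) 2, T.IsClassModule (unitsRep K L) γ := by
  refine (T.H53.classModuleOfCyclic (L ≃ₐ[K] L) (unitsRep K L) ?_ ?_).1
  · intro H
    have := (hCM K L H).1
    exact ModuleCat.isZero_of_subsingleton _
  · intro H
    exact (hCM K L H).2

end ClassModule

/-- **L-D1a.** `H³(Gal(L/K), Lˣ) = 0`, from the class module property and Tate's theorem. -/
theorem h3_of497 (hCM : ClassModuleSpec) (hT3 : T.TateH3Spec) : H3Spec := by
  intro K L _ _ _ _ _ _
  obtain ⟨γ, hγ⟩ := exists_isClassModule497 K L hCM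
  have h := hT3 (L ≃ₐ[K] L) (unitsRep K L) γ hγ ⊤
  have h' : Limits.IsZero (groupCohomology (unitsRep K L) 3) :=
    h.of_iso (T.H53.topIso (unitsRep K L) 3).symm
  exact ModuleCat.subsingleton_of_isZero h'

section Hat0

variable (K L : Type) [Field K] [Field L] [Algebra K L] [FiniteDimensional K L] [IsGalois K L]

/-- The representation of the full group `⊤ ≤ Gal(L/K)` on `Lˣ` (at the `Representation`
level; it is definitionally `(T.resSub (unitsRep K L) ⊤).ρ`). -/
noncomputable abbrev topRho497 :
    Representation ℤ (⊤ : Subgroup (L ≃ₐ[K] L)) (Additive Lˣ) :=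
  (Representation.ofMulDistribMulAction (L ≃ₐ[K] L) Lˣ).comp
    (⊤ : Subgroup (L ≃ₐ[K] L)).subtype

omit [FiniteDimensional K L] [IsGalois K L] in
lemma topRho497_apply (h : (⊤ : Subgroup (L ≃ₐ[K] L))) (x : Additive Lˣ) :
    topRho497 K L h x = Additive.ofMul ((h : L ≃ₐ[K] L) • x.toMul) := rfl

omit [FiniteDimensional K L] [IsGalois K L] in
/-- The image of `u ∈ Kˣ` in `Lˣ` is Galois invariant. -/
lemma map_mem_invariants497 (u : Kˣ) :
    (Additive.ofMul (Units.map (algebraMap K L : K →* L) u) : Additive Lˣ) ∈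
      (topRho497 K L).invariants := by
  intro h
  rw [topRho497_apply]
  congr 1
  ext
  simp

variable [Fintype (⊤ : Subgroup (L ≃ₐ[K] L))]

/-- The norm of the `⊤`-representation `Lˣ` is the field norm. -/
lemma norm_topRho497 (y : Additive Lˣ) :
    (topRho497 K L).norm y =
      Additive.ofMul (Units.map (algebraMap K L : K →* L)
        (Units.map (Algebra.norm K : L →* K) y.toMul)) := by
  classical
  apply Additive.toMul.injective
  rw [toMul_ofMul]
  ext
  rw [Representation.norm, LinearMap.sum_apply, toMul_sum, Units.coe_prod]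
  simp only [topRho497_apply, toMul_ofMul, Units.coe_map, MonoidHom.coe_coe]
  rw [Algebra.norm_eq_prod_automorphisms]
  refine Fintype.prod_equiv (Subgroup.topEquiv (G := L ≃ₐ[K] L)).toEquiv _ _ ?_
  intro h
  rfl

/-- `Ĥ⁰(⊤, Lˣ)` at the `Representation` level (definitionally
`T.hat0 (T.resSub (unitsRep K L) ⊤)`). -/
abbrev hat0Rho497 : Type :=
  ↥(topRho497 K L).invariants ⧸
    (LinearMap.range (topRho497 K L).norm).comap (topRho497 K L).invariants.subtype

/-- The canonical map `Kˣ → Ĥ⁰(Gal(L/K), Lˣ)`. -/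
noncomputable def toHat0_497 : Kˣ →* Multiplicative (hat0Rho497 K L) where
  toFun u := Multiplicative.ofAdd
    (Submodule.Quotient.mk ⟨_, map_mem_invariants497 K L u⟩)
  map_one' := by
    rw [← ofAdd_zero]
    congr 1
    rw [Submodule.Quotient.mk_eq_zero]
    refine Submodule.mem_comap.2 ?_
    convert Submodule.zero_mem _
    simp
  map_mul' u v := by
    rw [← ofAdd_add, ← Submodule.Quotient.mk_add]
    congr 2
    apply Subtype.ext
    simp [map_mul]

lemma toHat0_497_apply (u : Kˣ) :
    toHat0_497 K L u = Multiplicative.ofAdd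
      (Submodule.Quotient.mk ⟨_, map_mem_invariants497 K L u⟩) := rfl

lemma toHat0_497_surjective : Function.Surjective (toHat0_497 K L) := by
  intro z
  obtain ⟨⟨x, hx⟩, rfl⟩ := Submodule.Quotient.mk_surjective _ z.toAdd
  -- `x.toMul ∈ Lˣ` is fixed by the Galois group, hence comes from `Kˣ`
  have hfix : ∀ σ : L ≃ₐ[K] L, σ ((x.toMul : Lˣ) : L) = ((x.toMul : Lˣ) : L) := by
    intro σ
    have h := hx ⟨σ, Subgroup.mem_top σ⟩
    rw [topRho497_apply] at h
    have h2 := congrArg (fun t : Additive Lˣ => ((t.toMul : Lˣ) : L)) h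
    simpa using h2
  obtain ⟨a, ha⟩ := (IsGalois.mem_range_algebraMap_iff_fixed (F := K) (E := L) _).2 hfix
  have ha0 : a ≠ 0 := by
    rintro rfl
    rw [map_zero] at ha
    exact (Units.ne_zero x.toMul) ha.symm
  refine ⟨Units.mk0 a ha0, ?_⟩
  rw [toHat0_497_apply]
  apply Multiplicative.toAdd.injective
  rw [toAdd_ofAdd]
  congr 1
  apply Subtype.ext
  apply Additive.toMul.injective
  ext
  simpa using ha

lemma toHat0_497_ker :
    (toHat0_497 K L).ker = (Units.map (Algebra.norm K : L →* K)).range := by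
  ext u
  rw [MonoidHom.mem_ker, toHat0_497_apply, MonoidHom.mem_range]
  constructor
  · intro h
    have h0 : (Submodule.Quotient.mk (p := (LinearMap.range (topRho497 K L).norm).comap
        (topRho497 K L).invariants.subtype)
        ⟨_, map_mem_invariants497 K L u⟩ : hat0Rho497 K L) = 0 := by
      have := congrArg Multiplicative.toAdd h
      simpa using this
    rw [Submodule.Quotient.mk_eq_zero] at h0
    obtain ⟨y, hy⟩ := Submodule.mem_comap.1 h0
    rw [norm_topRho497] at hy
    refine ⟨y.toMul, ?_⟩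
    have h1 : Units.map (algebraMap K L : K →* L)
        (Units.map (Algebra.norm K : L →* K) y.toMul) =
        Units.map (algebraMap K L : K →* L) u := Additive.ofMul.injective hy
    apply Units.ext
    apply (algebraMap K L).injective
    have := congrArg (fun t : Lˣ => (t : L)) h1
    simpa using this
  · rintro ⟨y, rfl⟩
    rw [← ofAdd_zero]
    congr 1
    rw [Submodule.Quotient.mk_eq_zero]
    refine Submodule.mem_comap.2 ⟨Additive.ofMul y, ?_⟩
    rw [norm_topRho497]
    rfl

/-- **`Ĥ⁰(Gal(L/K), Lˣ) = Kˣ / N(Lˣ)`** for a finite Galois extension of fields. -/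
noncomputable def hat0Equiv497 :
    Kˣ ⧸ (Units.map (Algebra.norm K : L →* K)).range ≃* Multiplicative (hat0Rho497 K L) :=
  (QuotientGroup.quotientMulEquivOfEq (toHat0_497_ker K L).symm).trans
    (QuotientGroup.quotientKerEquivOfSurjective (toHat0_497 K L) (toHat0_497_surjective K L))

end Hat0

/-- **Norm residue isomorphism (abstract form)**: `Kˣ ⧸ N(Lˣ) ≃* Gal(L/K)^ab` for finite Galois
extensions of local fields, from the class module property and Tate's theorem (T5c).
(This is `NormResidueIsoSpec844` of leaf L-D2, helper844.) -/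
theorem normResidue_of497 (hCM : ClassModuleSpec) (hR : T.TateReciprocitySpec)
    (K L : Type) [Field K] [Field L] [Algebra K L] [FiniteDimensional K L] [IsGalois K L]
    [IsLocalFld K] :
    Nonempty (Kˣ ⧸ (Units.map (Algebra.norm K : L →* K)).range ≃*
      Abelianization (L ≃ₐ[K] L)) := by
  classical
  obtain ⟨γ, hγ⟩ := exists_isClassModule497 K L hCM
  let _ : Fintype (⊤ : Subgroup (L ≃ₐ[K] L)) := Fintype.ofFinite _
  obtain ⟨e⟩ := hR (L ≃ₐ[K] L) (unitsRep K L) γ hγ ⊤
  have e' : Additive (Abelianization (⊤ : Subgroup (L ≃ₐ[K] L))) ≃+ hat0Rho497 K L := e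
  have e1 : Multiplicative (hat0Rho497 K L) ≃* Abelianization (⊤ : Subgroup (L ≃ₐ[K] L)) :=
    (AddEquiv.toMultiplicative e'.symm).trans (MulEquiv.multiplicativeAdditive _)
  have e2 : Abelianization (⊤ : Subgroup (L ≃ₐ[K] L)) ≃* Abelianization (L ≃ₐ[K] L) :=
    (Subgroup.topEquiv (G := L ≃ₐ[K] L)).abelianizationCongr
  exact ⟨((hat0Equiv497 K L).trans e1).trans e2⟩

/-- **L-D1b.** norm index: `[Kˣ : N Lˣ] = |Gal(L/K)^ab|`. -/
theorem normIndex_of497 (hCM : ClassModuleSpec) (hR : T.TateReciprocitySpec) :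
    NormIndexSpec := by
  intro K L _ _ _ _ _ _
  obtain ⟨e⟩ := normResidue_of497 hCM hR K L
  rw [Subgroup.index_eq_card]
  exact Nat.card_congr e.toEquiv

end Fermat.Agent.S55.L
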