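import Fermat.Agent.S55.L.ClassModule

/-!
# S55, layer L: `H²` is cyclic of order `n` from the upper and the lower bound
-/

set_option autoImplicit false
set_option linter.style.haveILetI false

namespace Fermat.Agent.S55.L

open groupCohomology

/-- **L-C1b** lower bound: `H²(Gal(L/K), Lˣ)` contains an element of order `[L : K]`. -/
def H2LowerSpec : Prop :=
  ∀ (K L : Type) [Field K] [Field L] [Algebra K L] [FiniteDimensional K L] [IsGalois K L]
    [IsLocalFld K], ∃ x : H2 (unitsRep K L), addOrderOf x = Module.finrank K L

/-- A finite additive group of order at most `n` with an element of order `n` is `ZMod n`. -/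
theorem nonempty_addEquiv_zmod_of_card_le {G : Type*} [AddCommGroup G] [Finite G] {n : ℕ}
    (hle : Nat.card G ≤ n) (x : G) (hx : addOrderOf x = n) : Nonempty (G ≃+ ZMod n) := by
  have hcard : Nat.card G = n := by
    refine le_antisymm hle ?_
    rw [← hx]
    exact Nat.le_of_dvd Nat.card_pos (addOrderOf_dvd_natCard x)
  have hcyc : IsAddCyclic G := isAddCyclic_of_addOrderOf_eq_card x (by rw [hx, hcard])
  have e := zmodAddCyclicAddEquiv hcyc
  rw [hcard] at e
  exact ⟨e.symm⟩

/-- **L-C1** from the upper and lower bounds. -/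
theorem h2Cyclic_of (hle : H2CardLeSpec) (hlow : H2LowerSpec) : H2CyclicSpec := by
  intro K L _ _ _ _ _ _
  obtain ⟨hfin, hcard⟩ := hle K L
  obtain ⟨x, hx⟩ := hlow K L
  haveI := hfin
  exact nonempty_addEquiv_zmod_of_card_le hcard x hx

end Fermat.Agent.S55.L
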