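import Fermat.Agent.S55.L.D1H301
import Fermat.Agent.S55.H424.LocalFldPow

/-!
# S55, layer L: the norm residue isomorphism as an abstract group isomorphism (helper479)

Bridge for leaf L-D2 (`ExistenceModSpec`): from the class-module statement `ClassModuleSpec` of
layer L and Tate's reciprocity isomorphism `T.TateReciprocitySpec` (layer T) we get, for every
finite Galois extension `L/K` of a local field `K`, an isomorphism of groups
`Kˣ ⧸ N_{L/K}(Lˣ) ≃* Gal(L/K)^ab`.

This is the isomorphism version of helper301's `card_hat0_unitsRep_h301` (which gives the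
cardinality only; L-D2 needs the exponent of `Kˣ ⧸ N Lˣ`).
-/

set_option autoImplicit false
set_option linter.style.haveILetI false

namespace Fermat.Agent.S55.L

open CategoryTheory groupCohomology

section Hat0Iso

/-- Abstract computation of `Ĥ⁰` as a quotient group (isomorphism version of
`card_hat0_eq_index_h301`). -/
theorem nonempty_quotient_mulEquiv_hat0_h479 {k H : Type} [CommRing k] [Group H] [Fintype H]
    (A : Rep.{0} k H)
    {Q : Type} [CommGroup Q] (ι : Additive Q →+ A.V)
    (hinv : ∀ x : A.V, x ∈ A.ρ.invariants ↔ ∃ u, ι u = x)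
    (S : Subgroup Q)
    (hS : ∀ u : Q, u ∈ S ↔ ∃ y : A.V, A.ρ.norm y = ι (Additive.ofMul u)) :
    Nonempty (Q ⧸ S ≃* Multiplicative (T.hat0 A)) := by
  classical
  let ι' : Additive Q →+ A.ρ.invariants :=
    { toFun := fun u => ⟨ι u, (hinv _).2 ⟨u, rfl⟩⟩
      map_zero' := by ext; simp
      map_add' := fun u v => by ext; simp }
  let ψ : Additive Q →+ T.hat0 A :=
    ((Submodule.mkQ ((LinearMap.range A.ρ.norm).comap A.ρ.invariants.subtype)).toAddMonoidHom).comp ι'
  have hsurj : Function.Surjective ψ := by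
    intro z
    obtain ⟨⟨x, hx⟩, rfl⟩ := Submodule.Quotient.mk_surjective _ z
    obtain ⟨u, hu⟩ := (hinv x).1 hx
    refine ⟨u, ?_⟩
    show Submodule.Quotient.mk (ι' u) = _
    congr 1
    exact Subtype.ext hu
  have hker : ∀ u : Additive Q, ψ u = 0 ↔ Additive.toMul u ∈ S := by
    intro u
    show Submodule.Quotient.mk (ι' u) = 0 ↔ _
    rw [Submodule.Quotient.mk_eq_zero, Submodule.mem_comap, LinearMap.mem_range]
    exact (hS (Additive.toMul u)).symm
  let Ψ : Q →* Multiplicative (T.hat0 A) := AddMonoidHom.toMultiplicativeRight ψ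
  have hΨ : ∀ u : Q, Ψ u = Multiplicative.ofAdd (ψ (Additive.ofMul u)) := fun _ => rfl
  have hΨsurj : Function.Surjective Ψ := by
    intro z
    obtain ⟨u, hu⟩ := hsurj (Multiplicative.toAdd z)
    exact ⟨Additive.toMul u, by rw [hΨ]; exact congrArg Multiplicative.ofAdd hu⟩
  have hΨker : Ψ.ker = S := by
    ext u
    rw [MonoidHom.mem_ker, hΨ]
    refine Iff.trans ?_ (hker (Additive.ofMul u))
    exact ⟨fun h => congrArg Multiplicative.toAdd h, fun h => congrArg Multiplicative.ofAdd h⟩
  exact ⟨(QuotientGroup.quotientMulEquivOfEq hΨker.symm).trans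
    (QuotientGroup.quotientKerEquivOfSurjective Ψ hΨsurj)⟩

end Hat0Iso

section Fields

open Additive

variable (K L : Type) [Field K] [Field L] [Algebra K L] [FiniteDimensional K L] [IsGalois K L]

/-- `Ĥ⁰(Gal(L/K), Lˣ) ≅ Kˣ ⧸ N Lˣ` (computed on the restriction to `⊤`), as groups. -/
theorem nonempty_quotient_norm_mulEquiv_hat0_h479 [Fintype (⊤ : Subgroup (L ≃ₐ[K] L))] :
    Nonempty (Kˣ ⧸ MonoidHom.range (Units.map (Algebra.norm K : L →* K)) ≃*
      Multiplicative (T.hat0 (T.resSub (unitsRep K L) (⊤ : Subgroup (L ≃ₐ[K] L))))) := by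
  classical
  refine nonempty_quotient_mulEquiv_hat0_h479 (T.resSub (unitsRep K L) (⊤ : Subgroup (L ≃ₐ[K] L)))
    (Q := Kˣ) (show Additive Kˣ →+ Additive Lˣ from
      (Units.map (algebraMap K L : K →* L)).toAdditive) ?_ _ ?_
  · intro x
    constructor
    · intro hx
      have hfix : ∀ σ : L ≃ₐ[K] L, σ ((toMul (show Additive Lˣ from x) : Lˣ) : L) =
          ((toMul (show Additive Lˣ from x) : Lˣ) : L) := by
        intro σ
        have := hx ⟨σ, Subgroup.mem_top σ⟩
        exact congrArg (fun z : Additive Lˣ => ((toMul z : Lˣ) : L)) this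
      obtain ⟨a, ha⟩ := (IsGalois.mem_range_algebraMap_iff_fixed _).2 hfix
      have ha0 : a ≠ 0 := by
        rintro rfl
        rw [map_zero] at ha
        exact (Units.ne_zero _) ha.symm
      refine ⟨ofMul (Units.mk0 a ha0), ?_⟩
      show ofMul (Units.map (algebraMap K L : K →* L) (Units.mk0 a ha0)) = _
      apply congrArg ofMul
      apply Units.ext
      exact ha
    · rintro ⟨u, rfl⟩ g
      show ofMul ((g : L ≃ₐ[K] L) • Units.map (algebraMap K L : K →* L) (toMul u)) = _
      apply congrArg ofMul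
      apply Units.ext
      exact (g : L ≃ₐ[K] L).commutes _
  · intro u
    constructor
    · rintro ⟨w, rfl⟩
      refine ⟨(show Additive Lˣ from ofMul w), ?_⟩
      show Representation.norm ((Representation.ofMulDistribMulAction (L ≃ₐ[K] L) Lˣ).comp
        (⊤ : Subgroup (L ≃ₐ[K] L)).subtype : Representation ℤ (⊤ : Subgroup (L ≃ₐ[K] L))
          (Additive Lˣ)) (ofMul w) =
        ofMul (Units.map (algebraMap K L : K →* L) (Units.map (Algebra.norm K : L →* K) w))
      apply toMul.injective
      apply Units.ext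
      rw [resTop_norm_h301]
      rfl
    · rintro ⟨y, hy⟩
      refine ⟨toMul (show Additive Lˣ from y), ?_⟩
      have hy' : Representation.norm ((Representation.ofMulDistribMulAction (L ≃ₐ[K] L) Lˣ).comp
        (⊤ : Subgroup (L ≃ₐ[K] L)).subtype : Representation ℤ (⊤ : Subgroup (L ≃ₐ[K] L))
          (Additive Lˣ)) (ofMul (toMul (show Additive Lˣ from y))) =
        ofMul (Units.map (algebraMap K L : K →* L) u) := hy
      have h2 := congrArg (fun z : Additive Lˣ => ((toMul z : Lˣ) : L)) hy'
      simp only [resTop_norm_h301] at h2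
      apply Units.ext
      apply (algebraMap K L).injective
      exact h2

end Fields

/-- **Norm residue isomorphism (abstract form).**  For a finite Galois extension `L/K` of a local
field: `Kˣ ⧸ N_{L/K}(Lˣ) ≃* Gal(L/K)^ab`, from the class-module statement and Tate's reciprocity
isomorphism. -/
theorem normResidueIso_of_h479 (hCM : ClassModuleSpec) (hT : T.TateReciprocitySpec)
    (K L : Type) [Field K] [Field L] [Algebra K L] [FiniteDimensional K L] [IsGalois K L]
    [IsLocalFld K] :
    Nonempty (Kˣ ⧸ MonoidHom.range (Units.map (Algebra.norm K : L →* K)) ≃*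
      Abelianization (L ≃ₐ[K] L)) := by
  classical
  obtain ⟨γ, hγ⟩ := exists_isClassModule_unitsRep_h301 K L hCM
  letI : Fintype (⊤ : Subgroup (L ≃ₐ[K] L)) := Fintype.ofFinite _
  obtain ⟨e⟩ := hT (L ≃ₐ[K] L) (unitsRep K L) γ hγ ⊤
  obtain ⟨b⟩ := nonempty_quotient_norm_mulEquiv_hat0_h479 K L
  exact ⟨b.trans ((AddEquiv.toMultiplicativeRight e).symm.trans
    (Subgroup.topEquiv : (⊤ : Subgroup (L ≃ₐ[K] L)) ≃* _).abelianizationCongr)⟩

/-- The same isomorphism, in the other direction. -/
theorem normResidueIso_symm_of_h479 (hCM : ClassModuleSpec) (hT : T.TateReciprocitySpec)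
    (K L : Type) [Field K] [Field L] [Algebra K L] [FiniteDimensional K L] [IsGalois K L]
    [IsLocalFld K] :
    Nonempty (Abelianization (L ≃ₐ[K] L) ≃*
      Kˣ ⧸ MonoidHom.range (Units.map (Algebra.norm K : L →* K))) :=
  (normResidueIso_of_h479 hCM hT K L).map MulEquiv.symm

/-- `(Kˣ)ⁿ` has finite index in `Kˣ` for a local field `K` (from the landed LPI block of
helper424). -/
theorem powFiniteIndex_h479 (K : Type) [Field K] [IsLocalFld K] (n : ℕ) (hn : 0 < n) :
    (powMonoidHom n : Kˣ →* Kˣ).range.FiniteIndex :=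
  ⟨Fermat.Agent.S55.H424.isLocalFld_index_range_pow_ne_zero K n hn.ne'⟩

end Fermat.Agent.S55.L
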